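/-
S41 / C4 [CSP], helper54: INTERFACE for helper11's proof (#3042) of the congruence subgroup
property for `SL₂(ℤ[1/q])`.

* `SLA q`      : `SL₂(ℤ[1/q])` inside `SL(2,ℚ)` (entries `IsAway q`);
* `IsAwayMul q M x` : `x ∈ M ℤ[1/q]`;
* `GamA q M`   : the principal congruence subgroup of level `M` of `SL₂(ℤ[1/q])`;
* `IsParHom q M Ψ` : `Ψ : SL(2,ℚ) → V` is additive on `GamA q M` and kills its unipotent
  (= trace `2`) elements;
* `ParHomVanish q p m` : the THEOREM of #3042 for `V = ZMod p`.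
-/
import Fermat.Agent.S41.Amalgam95.Delta

set_option autoImplicit false

namespace Fermat.Agent.S41.CSP54

open Matrix Fermat.Agent.S41.Amalgam95

/-- `x ∈ M ℤ[1/q]` -/
def IsAwayMul (q M : ℕ) (x : ℚ) : Prop := ∃ r : ℚ, IsAway q r ∧ x = (M : ℚ) * r

namespace IsAwayMul

variable {q M : ℕ} {x y : ℚ}

lemma isAway (hx : IsAwayMul q M x) : IsAway q x := by
  obtain ⟨r, hr, rfl⟩ := hx
  exact (IsAway.of_int M).mul hr

lemma zero : IsAwayMul q M 0 := ⟨0, IsAway.zero, by ring⟩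

lemma neg (hx : IsAwayMul q M x) : IsAwayMul q M (-x) := by
  obtain ⟨r, hr, rfl⟩ := hx
  exact ⟨-r, hr.neg, by ring⟩

lemma add (hx : IsAwayMul q M x) (hy : IsAwayMul q M y) : IsAwayMul q M (x + y) := by
  obtain ⟨r, hr, rfl⟩ := hx
  obtain ⟨s, hs, rfl⟩ := hy
  exact ⟨r + s, hr.add hs, by ring⟩

lemma sub (hx : IsAwayMul q M x) (hy : IsAwayMul q M y) : IsAwayMul q M (x - y) := by
  rw [sub_eq_add_neg]
  exact hx.add hy.neg

lemma mul_left (hx : IsAway q x) (hy : IsAwayMul q M y) : IsAwayMul q M (x * y) := by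
  obtain ⟨s, hs, rfl⟩ := hy
  exact ⟨x * s, hx.mul hs, by ring⟩

lemma mul_right (hx : IsAwayMul q M x) (hy : IsAway q y) : IsAwayMul q M (x * y) := by
  rw [mul_comm]
  exact mul_left hy hx

lemma of_mul (hx : IsAway q x) : IsAwayMul q M ((M : ℚ) * x) := ⟨x, hx, rfl⟩

/-- divisibility of the level -/
lemma of_dvd {M' : ℕ} (h : M' ∣ M) (hx : IsAwayMul q M x) : IsAwayMul q M' x := by
  obtain ⟨r, hr, rfl⟩ := hx
  obtain ⟨k, rfl⟩ := h
  refine ⟨(k : ℚ) * r, (IsAway.of_int k).mul hr, ?_⟩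
  push_cast
  ring

end IsAwayMul

/-- `SL₂(ℤ[1/q])` inside `SL(2,ℚ)`. -/
def SLA (q : ℕ) : Subgroup SLQ where
  carrier := {g | IsAway q (g 0 0) ∧ IsAway q (g 0 1) ∧ IsAway q (g 1 0) ∧ IsAway q (g 1 1)}
  one_mem' := by
    refine ⟨?_, ?_, ?_, ?_⟩
    · rw [one_00]; exact IsAway.one
    · rw [one_01]; exact IsAway.zero
    · rw [one_10]; exact IsAway.zero
    · rw [one_11]; exact IsAway.one
  mul_mem' := by
    rintro g h ⟨g00, g01, g10, g11⟩ ⟨h00, h01, h10, h11⟩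
    refine ⟨?_, ?_, ?_, ?_⟩
    · rw [mul_00]; exact (g00.mul h00).add (g01.mul h10)
    · rw [mul_01]; exact (g00.mul h01).add (g01.mul h11)
    · rw [mul_10]; exact (g10.mul h00).add (g11.mul h10)
    · rw [mul_11]; exact (g10.mul h01).add (g11.mul h11)
  inv_mem' := by
    rintro g ⟨g00, g01, g10, g11⟩
    refine ⟨?_, ?_, ?_, ?_⟩
    · rw [inv_00]; exact g11
    · rw [inv_01]; exact g01.neg
    · rw [inv_10]; exact g10.neg
    · rw [inv_11]; exact g00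

lemma mem_SLA_iff (q : ℕ) (g : SLQ) :
    g ∈ SLA q ↔ IsAway q (g 0 0) ∧ IsAway q (g 0 1) ∧ IsAway q (g 1 0) ∧ IsAway q (g 1 1) :=
  Iff.rfl

/-- the principal congruence subgroup of level `M` of `SL₂(ℤ[1/q])`. -/
def GamA (q M : ℕ) : Subgroup SLQ where
  carrier := {g | IsAwayMul q M (g 0 0 - 1) ∧ IsAwayMul q M (g 0 1) ∧ IsAwayMul q M (g 1 0) ∧
    IsAwayMul q M (g 1 1 - 1)}
  one_mem' := by
    refine ⟨?_, ?_, ?_, ?_⟩
    · rw [one_00, sub_self]; exact IsAwayMul.zero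
    · rw [one_01]; exact IsAwayMul.zero
    · rw [one_10]; exact IsAwayMul.zero
    · rw [one_11, sub_self]; exact IsAwayMul.zero
  mul_mem' := by
    rintro g h ⟨g00, g01, g10, g11⟩ ⟨h00, h01, h10, h11⟩
    have hg00 : IsAway q (g 0 0) := by
      have := g00.isAway.add IsAway.one
      rwa [sub_add_cancel] at this
    have hg11 : IsAway q (g 1 1) := by
      have := g11.isAway.add IsAway.one
      rwa [sub_add_cancel] at this
    refine ⟨?_, ?_, ?_, ?_⟩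
    · rw [mul_00]
      have : g 0 0 * h 0 0 + g 0 1 * h 1 0 - 1 =
          g 0 0 * (h 0 0 - 1) + (g 0 0 - 1) + g 0 1 * h 1 0 := by ring
      rw [this]
      exact ((IsAwayMul.mul_left hg00 h00).add g00).add (IsAwayMul.mul_left g01.isAway h10)
    · rw [mul_01]
      have : g 0 0 * h 0 1 + g 0 1 * h 1 1 = g 0 0 * h 0 1 + g 0 1 * (h 1 1 - 1) + g 0 1 := by ring
      rw [this]
      exact ((IsAwayMul.mul_left hg00 h01).add (IsAwayMul.mul_left g01.isAway h11)).add g01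
    · rw [mul_10]
      have : g 1 0 * h 0 0 + g 1 1 * h 1 0 = g 1 0 * (h 0 0 - 1) + g 1 0 + g 1 1 * h 1 0 := by ring
      rw [this]
      exact ((IsAwayMul.mul_left g10.isAway h00).add g10).add (IsAwayMul.mul_left hg11 h10)
    · rw [mul_11]
      have : g 1 0 * h 0 1 + g 1 1 * h 1 1 - 1 =
          g 1 0 * h 0 1 + g 1 1 * (h 1 1 - 1) + (g 1 1 - 1) := by ring
      rw [this]
      exact ((IsAwayMul.mul_left g10.isAway h01).add (IsAwayMul.mul_left hg11 h11)).add g11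
  inv_mem' := by
    rintro g ⟨g00, g01, g10, g11⟩
    refine ⟨?_, ?_, ?_, ?_⟩
    · rw [inv_00]; exact g11
    · rw [inv_01]; exact g01.neg
    · rw [inv_10]; exact g10.neg
    · rw [inv_11]; exact g00

lemma mem_GamA_iff (q M : ℕ) (g : SLQ) :
    g ∈ GamA q M ↔ IsAwayMul q M (g 0 0 - 1) ∧ IsAwayMul q M (g 0 1) ∧ IsAwayMul q M (g 1 0) ∧
      IsAwayMul q M (g 1 1 - 1) := Iff.rfl

lemma GamA_le_SLA (q M : ℕ) : GamA q M ≤ SLA q := by
  rintro g ⟨g00, g01, g10, g11⟩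
  refine ⟨?_, g01.isAway, g10.isAway, ?_⟩
  · have := g00.isAway.add IsAway.one
    rwa [sub_add_cancel] at this
  · have := g11.isAway.add IsAway.one
    rwa [sub_add_cancel] at this

lemma GamA_mono (q : ℕ) {M M' : ℕ} (h : M' ∣ M) : GamA q M ≤ GamA q M' := by
  rintro g ⟨g00, g01, g10, g11⟩
  exact ⟨g00.of_dvd h, g01.of_dvd h, g10.of_dvd h, g11.of_dvd h⟩

/-- `GamA q M` is normalised by `SLA q`. -/
lemma conj_mem_GamA {q M : ℕ} {x g : SLQ} (hx : x ∈ SLA q) (hg : g ∈ GamA q M) :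
    x * g * x⁻¹ ∈ GamA q M := by
  obtain ⟨x00, x01, x10, x11⟩ := hx
  obtain ⟨g00, g01, g10, g11⟩ := hg
  have hdet := det_eq x
  refine ⟨?_, ?_, ?_, ?_⟩
  · rw [mul_00, mul_00, mul_01, inv_00, inv_10]
    have : (x 0 0 * g 0 0 + x 0 1 * g 1 0) * x 1 1 + (x 0 0 * g 0 1 + x 0 1 * g 1 1) * -x 1 0 - 1 =
        x 0 0 * x 1 1 * (g 0 0 - 1) + x 0 1 * x 1 1 * g 1 0 - x 0 0 * x 1 0 * g 0 1
          - x 0 1 * x 1 0 * (g 1 1 - 1) := by linear_combination hdet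
    rw [this]
    exact (((IsAwayMul.mul_left (x00.mul x11) g00).add (IsAwayMul.mul_left (x01.mul x11) g10)).sub
      (IsAwayMul.mul_left (x00.mul x10) g01)).sub (IsAwayMul.mul_left (x01.mul x10) g11)
  · rw [mul_01, mul_00, mul_01, inv_01, inv_11]
    have : (x 0 0 * g 0 0 + x 0 1 * g 1 0) * -x 0 1 + (x 0 0 * g 0 1 + x 0 1 * g 1 1) * x 0 0 =
        - (x 0 0 * x 0 1 * (g 0 0 - 1)) - x 0 1 * x 0 1 * g 1 0 + x 0 0 * x 0 0 * g 0 1
          + x 0 0 * x 0 1 * (g 1 1 - 1) := by ring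
    rw [this]
    exact ((((IsAwayMul.mul_left (x00.mul x01) g00).neg).sub
      (IsAwayMul.mul_left (x01.mul x01) g10)).add (IsAwayMul.mul_left (x00.mul x00) g01)).add
      (IsAwayMul.mul_left (x00.mul x01) g11)
  · rw [mul_10, mul_10, mul_11, inv_00, inv_10]
    have : (x 1 0 * g 0 0 + x 1 1 * g 1 0) * x 1 1 + (x 1 0 * g 0 1 + x 1 1 * g 1 1) * -x 1 0 =
        x 1 0 * x 1 1 * (g 0 0 - 1) + x 1 1 * x 1 1 * g 1 0 - x 1 0 * x 1 0 * g 0 1
          - x 1 0 * x 1 1 * (g 1 1 - 1) := by ring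
    rw [this]
    exact (((IsAwayMul.mul_left (x10.mul x11) g00).add (IsAwayMul.mul_left (x11.mul x11) g10)).sub
      (IsAwayMul.mul_left (x10.mul x10) g01)).sub (IsAwayMul.mul_left (x10.mul x11) g11)
  · rw [mul_11, mul_10, mul_11, inv_01, inv_11]
    have : (x 1 0 * g 0 0 + x 1 1 * g 1 0) * -x 0 1 + (x 1 0 * g 0 1 + x 1 1 * g 1 1) * x 0 0 - 1 =
        - (x 1 0 * x 0 1 * (g 0 0 - 1)) - x 1 1 * x 0 1 * g 1 0 + x 1 0 * x 0 0 * g 0 1
          + x 1 1 * x 0 0 * (g 1 1 - 1) := by linear_combination hdet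
    rw [this]
    exact ((((IsAwayMul.mul_left (x10.mul x01) g00).neg).sub
      (IsAwayMul.mul_left (x11.mul x01) g10)).add (IsAwayMul.mul_left (x10.mul x00) g01)).add
      (IsAwayMul.mul_left (x11.mul x00) g11)

/-- trace of a conjugate -/
lemma trace_conj (x g : SLQ) : (x * g * x⁻¹) 0 0 + (x * g * x⁻¹) 1 1 = g 0 0 + g 1 1 := by
  have hdet := det_eq x
  rw [mul_00, mul_00, mul_01, inv_00, inv_10, mul_11, mul_10, mul_11, inv_01, inv_11]
  linear_combination (g 0 0 + g 1 1) * hdet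

/-- **par-hom of level `M`**: `Ψ` is additive on `GamA q M` and kills its unipotent elements
(`g ∈ SL₂` is unipotent iff its trace is `2`). -/
structure IsParHom {V : Type*} [AddCommGroup V] (q M : ℕ) (Ψ : SLQ → V) : Prop where
  map_mul : ∀ g ∈ GamA q M, ∀ h ∈ GamA q M, Ψ (g * h) = Ψ g + Ψ h
  map_unip : ∀ g ∈ GamA q M, g 0 0 + g 1 1 = 2 → Ψ g = 0

namespace IsParHom

variable {V : Type*} [AddCommGroup V] {q M : ℕ} {Ψ : SLQ → V}

lemma map_one (h : IsParHom q M Ψ) : Ψ 1 = 0 :=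
  h.map_unip 1 (one_mem _) (by rw [one_00, one_11]; norm_num)

lemma map_inv (h : IsParHom q M Ψ) {g : SLQ} (hg : g ∈ GamA q M) : Ψ g⁻¹ = - Ψ g := by
  have := h.map_mul g hg g⁻¹ (inv_mem hg)
  rw [mul_inv_cancel, h.map_one] at this
  exact eq_neg_of_add_eq_zero_right this.symm

/-- a par-hom is invariant under inner conjugation of `GamA q M` (the target is abelian). -/
lemma map_conj_self (h : IsParHom q M Ψ) {x g : SLQ} (hx : x ∈ GamA q M) (hg : g ∈ GamA q M) :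
    Ψ (x * g * x⁻¹) = Ψ g := by
  rw [h.map_mul _ (mul_mem hx hg) _ (inv_mem hx), h.map_mul _ hx _ hg, h.map_inv hx]
  abel

/-- precomposition with conjugation by `x ∈ SL(2,ℚ)` is again a par-hom, on every level `M'` that
`x` conjugates into `GamA q M`. -/
lemma comp_conj (h : IsParHom q M Ψ) (x : SLQ) {M' : ℕ}
    (hx : ∀ g ∈ GamA q M', x * g * x⁻¹ ∈ GamA q M) :
    IsParHom q M' (fun g => Ψ (x * g * x⁻¹)) where
  map_mul g hg g' hg' := by
    have : x * (g * g') * x⁻¹ = (x * g * x⁻¹) * (x * g' * x⁻¹) := by group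
    show Ψ (x * (g * g') * x⁻¹) = _
    rw [this]
    exact h.map_mul _ (hx g hg) _ (hx g' hg')
  map_unip g hg htr := h.map_unip _ (hx g hg) (by rw [trace_conj]; exact htr)

/-- the difference of two par-homs is a par-hom -/
lemma sub {Ψ' : SLQ → V} (h : IsParHom q M Ψ) (h' : IsParHom q M Ψ') :
    IsParHom q M (fun g => Ψ g - Ψ' g) where
  map_mul g hg g' hg' := by
    show Ψ (g * g') - Ψ' (g * g') = _
    rw [h.map_mul g hg g' hg', h'.map_mul g hg g' hg']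
    abel
  map_unip g hg htr := by
    show Ψ g - Ψ' g = 0
    rw [h.map_unip g hg htr, h'.map_unip g hg htr, sub_zero]

end IsParHom

/-- **THE THEOREM of #3042** (for `V = ZMod p`): every par-hom of level `m` into `𝔽_p` vanishes. -/
def ParHomVanish (q p m : ℕ) : Prop :=
  ∀ Φ : SLQ → ZMod p, IsParHom q m Φ → ∀ g ∈ GamA q m, Φ g = 0

/-- the elementary matrices -/
def lQ (y : ℚ) : SLQ := mkQ 1 0 y 1 (by ring)

/-- `h(e) = diag(e, 1/e)` -/
def hQ (e : ℚ) (he : e ≠ 0) : SLQ := mkQ e 0 0 e⁻¹ (by rw [mul_zero, sub_zero, mul_inv_cancel₀ he])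

/-- `w = [[0,1],[-1,0]]` -/
def wQ : SLQ := mkQ 0 1 (-1) 0 (by ring)

@[simp] lemma lQ_00 (y : ℚ) : (lQ y) 0 0 = 1 := rfl
@[simp] lemma lQ_01 (y : ℚ) : (lQ y) 0 1 = 0 := rfl
@[simp] lemma lQ_10 (y : ℚ) : (lQ y) 1 0 = y := rfl
@[simp] lemma lQ_11 (y : ℚ) : (lQ y) 1 1 = 1 := rfl
@[simp] lemma uQ_00 (x : ℚ) : (uQ x) 0 0 = 1 := rfl
@[simp] lemma uQ_01 (x : ℚ) : (uQ x) 0 1 = x := rfl
@[simp] lemma uQ_10 (x : ℚ) : (uQ x) 1 0 = 0 := rfl
@[simp] lemma uQ_11 (x : ℚ) : (uQ x) 1 1 = 1 := rfl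
@[simp] lemma hQ_00 (e : ℚ) (he : e ≠ 0) : (hQ e he) 0 0 = e := rfl
@[simp] lemma hQ_01 (e : ℚ) (he : e ≠ 0) : (hQ e he) 0 1 = 0 := rfl
@[simp] lemma hQ_10 (e : ℚ) (he : e ≠ 0) : (hQ e he) 1 0 = 0 := rfl
@[simp] lemma hQ_11 (e : ℚ) (he : e ≠ 0) : (hQ e he) 1 1 = e⁻¹ := rfl
@[simp] lemma wQ_00 : wQ 0 0 = 0 := rfl
@[simp] lemma wQ_01 : wQ 0 1 = 1 := rfl
@[simp] lemma wQ_10 : wQ 1 0 = -1 := rfl
@[simp] lemma wQ_11 : wQ 1 1 = 0 := rfl

lemma uQ_mem_SLA {q : ℕ} {x : ℚ} (hx : IsAway q x) : uQ x ∈ SLA q :=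
  ⟨IsAway.one, hx, IsAway.zero, IsAway.one⟩

lemma lQ_mem_SLA {q : ℕ} {y : ℚ} (hy : IsAway q y) : lQ y ∈ SLA q :=
  ⟨IsAway.one, IsAway.zero, hy, IsAway.one⟩

lemma wQ_mem_SLA (q : ℕ) : wQ ∈ SLA q :=
  ⟨IsAway.zero, IsAway.one, IsAway.one.neg, IsAway.zero⟩

lemma uQ_mem_GamA {q M : ℕ} {x : ℚ} (hx : IsAwayMul q M x) : uQ x ∈ GamA q M := by
  refine ⟨?_, hx, IsAwayMul.zero, ?_⟩
  · rw [uQ_00, sub_self]; exact IsAwayMul.zero
  · rw [uQ_11, sub_self]; exact IsAwayMul.zero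

lemma lQ_mem_GamA {q M : ℕ} {y : ℚ} (hy : IsAwayMul q M y) : lQ y ∈ GamA q M := by
  refine ⟨?_, IsAwayMul.zero, hy, ?_⟩
  · rw [lQ_00, sub_self]; exact IsAwayMul.zero
  · rw [lQ_11, sub_self]; exact IsAwayMul.zero

end Fermat.Agent.S41.CSP54
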