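/-
S41 / C4 [CSP], helper54: HEDGE copy of STEP B of helper11's proof (#3042):
a par-hom `Φ` of level `m` into an abelian group killed by `p` is invariant under conjugation by
`h(k) = diag(k, 1/k)` (on the elements that `h(k)` conjugates into `GamA q m`), for `k` prime to
`m q` with `p ∤ φ(k^4)`; STEP A (invariance of par-homs of every level under `u(t)`, `l(t)`) is a
hypothesis (`StepAHyp`).
-/
import Mathlib
import Fermat.Agent.S41.CSPPlug54.Defs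

set_option autoImplicit false
set_option linter.unusedSimpArgs false
set_option linter.unusedVariables false
set_option linter.unusedSectionVars false

namespace Fermat.Agent.S41.CSP54

open Matrix Fermat.Agent.S41.Amalgam95

/-- **STEP A**, as a hypothesis: every par-hom (of every level `M` prime to `q`) with values in `V`
is invariant under conjugation by `u(t)` and `l(t)`, `t ∈ ℤ[1/q]`. -/
def StepAHyp (q : ℕ) (V : Type*) [AddCommGroup V] : Prop :=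
  ∀ (M : ℕ) (Ψ : SLQ → V), 0 < M → M.Coprime q → IsParHom q M Ψ →
    ∀ t : ℚ, IsAway q t → ∀ g ∈ GamA q M,
      Ψ (uQ t * g * (uQ t)⁻¹) = Ψ g ∧ Ψ (lQ t * g * (lQ t)⁻¹) = Ψ g

/-! ### matrix identities -/

/-- simp set computing entries of products / inverses of explicit matrices -/
lemma wQ_eq : wQ = uQ 1 * lQ (-1) * uQ 1 := by
  apply ext_entries <;>
  simp only [mul_00, mul_01, mul_10, mul_11, uQ_00, uQ_01, uQ_10, uQ_11, lQ_00, lQ_01, lQ_10,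
    lQ_11, wQ_00, wQ_01, wQ_10, wQ_11] <;> ring

lemma uQ_inv (x : ℚ) : (uQ x)⁻¹ = uQ (-x) := by
  apply ext_entries <;>
  simp only [inv_00, inv_01, inv_10, inv_11, uQ_00, uQ_01, uQ_10, uQ_11, neg_zero]

lemma lQ_inv (x : ℚ) : (lQ x)⁻¹ = lQ (-x) := by
  apply ext_entries <;>
  simp only [inv_00, inv_01, inv_10, inv_11, lQ_00, lQ_01, lQ_10, lQ_11, neg_zero]

lemma wQ_inv_eq : wQ⁻¹ = uQ (-1) * lQ 1 * uQ (-1) := by
  rw [wQ_eq, _root_.mul_inv_rev, _root_.mul_inv_rev, uQ_inv, lQ_inv, neg_neg, mul_assoc]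

/-- entries of `h(e) g h(e)⁻¹` -/
lemma hQ_conj_00 (e : ℚ) (he : e ≠ 0) (g : SLQ) : (hQ e he * g * (hQ e he)⁻¹) 0 0 = g 0 0 := by
  simp only [mul_00, mul_01, mul_10, mul_11, inv_00, inv_01, inv_10, inv_11, hQ_00, hQ_01, hQ_10,
    hQ_11]
  field_simp
  ring
lemma hQ_conj_01 (e : ℚ) (he : e ≠ 0) (g : SLQ) :
    (hQ e he * g * (hQ e he)⁻¹) 0 1 = e ^ 2 * g 0 1 := by
  simp only [mul_00, mul_01, mul_10, mul_11, inv_00, inv_01, inv_10, inv_11, hQ_00, hQ_01, hQ_10,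
    hQ_11]
  ring
lemma hQ_conj_10 (e : ℚ) (he : e ≠ 0) (g : SLQ) :
    (hQ e he * g * (hQ e he)⁻¹) 1 0 = g 1 0 / e ^ 2 := by
  simp only [mul_00, mul_01, mul_10, mul_11, inv_00, inv_01, inv_10, inv_11, hQ_00, hQ_01, hQ_10,
    hQ_11]
  field_simp
  ring
lemma hQ_conj_11 (e : ℚ) (he : e ≠ 0) (g : SLQ) : (hQ e he * g * (hQ e he)⁻¹) 1 1 = g 1 1 := by
  simp only [mul_00, mul_01, mul_10, mul_11, inv_00, inv_01, inv_10, inv_11, hQ_00, hQ_01, hQ_10,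
    hQ_11]
  field_simp
  ring

/-- entries of `h(e)⁻¹ g h(e)` -/
lemma hQ_conj'_00 (e : ℚ) (he : e ≠ 0) (g : SLQ) : ((hQ e he)⁻¹ * g * hQ e he) 0 0 = g 0 0 := by
  simp only [mul_00, mul_01, mul_10, mul_11, inv_00, inv_01, inv_10, inv_11, hQ_00, hQ_01, hQ_10,
    hQ_11]
  field_simp
  ring
lemma hQ_conj'_01 (e : ℚ) (he : e ≠ 0) (g : SLQ) :
    ((hQ e he)⁻¹ * g * hQ e he) 0 1 = g 0 1 / e ^ 2 := by
  simp only [mul_00, mul_01, mul_10, mul_11, inv_00, inv_01, inv_10, inv_11, hQ_00, hQ_01, hQ_10,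
    hQ_11]
  field_simp
  ring
lemma hQ_conj'_10 (e : ℚ) (he : e ≠ 0) (g : SLQ) :
    ((hQ e he)⁻¹ * g * hQ e he) 1 0 = e ^ 2 * g 1 0 := by
  simp only [mul_00, mul_01, mul_10, mul_11, inv_00, inv_01, inv_10, inv_11, hQ_00, hQ_01, hQ_10,
    hQ_11]
  ring
lemma hQ_conj'_11 (e : ℚ) (he : e ≠ 0) (g : SLQ) : ((hQ e he)⁻¹ * g * hQ e he) 1 1 = g 1 1 := by
  simp only [mul_00, mul_01, mul_10, mul_11, inv_00, inv_01, inv_10, inv_11, hQ_00, hQ_01, hQ_10,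
    hQ_11]
  field_simp
  ring

/-- `h(k) = u(k) l(-1/k) u(k) w⁻¹` -/
lemma hQ_eq (e : ℚ) (he : e ≠ 0) : hQ e he = uQ e * lQ (-(1 / e)) * uQ e * wQ⁻¹ := by
  apply ext_entries <;>
  simp only [mul_00, mul_01, mul_10, mul_11, inv_00, inv_01, inv_10, inv_11, hQ_00, hQ_01, hQ_10,
    hQ_11, uQ_00, uQ_01, uQ_10, uQ_11, lQ_00, lQ_01, lQ_10, lQ_11, wQ_00, wQ_01, wQ_10, wQ_11] <;>
  field_simp <;> ring

/-- `h(k) l(t) h(k)⁻¹ = l(t / k²)` -/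
lemma hQ_lQ_conj (e : ℚ) (he : e ≠ 0) (t : ℚ) :
    hQ e he * lQ t * (hQ e he)⁻¹ = lQ (t / e ^ 2) := by
  apply ext_entries
  · rw [hQ_conj_00]; rfl
  · rw [hQ_conj_01]; simp only [lQ_01, mul_zero]
  · rw [hQ_conj_10]; rfl
  · rw [hQ_conj_11]; rfl

/-! ### membership bookkeeping -/

lemma isAwayMul_div_sq {q m k : ℕ} (hk : k ≠ 0) {x : ℚ} (hx : IsAwayMul q (m * k ^ 2) x) :
    IsAwayMul q m (x / (k : ℚ) ^ 2) := by
  obtain ⟨r, hr, rfl⟩ := hx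
  have hk' : (k : ℚ) ≠ 0 := by exact_mod_cast hk
  refine ⟨r, hr, ?_⟩
  push_cast
  field_simp

lemma isAwayMul_div_sq' {q m k : ℕ} (hk : k ≠ 0) {x : ℚ} (hx : IsAwayMul q (m * k ^ 4) x) :
    IsAwayMul q (m * k ^ 2) (x / (k : ℚ) ^ 2) := by
  obtain ⟨r, hr, rfl⟩ := hx
  have hk' : (k : ℚ) ≠ 0 := by exact_mod_cast hk
  refine ⟨r, hr, ?_⟩
  push_cast
  field_simp

lemma isAway_natCast (q k : ℕ) : IsAway q (k : ℚ) := by
  simpa using IsAway.of_int (q := q) (k : ℤ)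

lemma isAway_natCast_pow (q k n : ℕ) : IsAway q ((k : ℚ) ^ n) := by
  simpa using IsAway.of_int (q := q) ((k : ℤ) ^ n)

/-- (B0.i) `h(k)` conjugates `{g ∈ Γ(m) : c ∈ m k² A}` into `Γ(m)` -/
lemma hQ_conj_mem {q m k : ℕ} (hk : (k : ℚ) ≠ 0) {g : SLQ} (hg : g ∈ GamA q m)
    (hc : IsAwayMul q (m * k ^ 2) (g 1 0)) : hQ k hk * g * (hQ k hk)⁻¹ ∈ GamA q m := by
  obtain ⟨g00, g01, g10, g11⟩ := hg
  have hk0 : k ≠ 0 := by rintro rfl; exact hk (by simp)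
  refine ⟨?_, ?_, ?_, ?_⟩
  · rw [hQ_conj_00]; exact g00
  · rw [hQ_conj_01]; exact IsAwayMul.mul_left (isAway_natCast_pow q k 2) g01
  · rw [hQ_conj_10]; exact isAwayMul_div_sq hk0 hc
  · rw [hQ_conj_11]; exact g11

/-- (B0.i') `h(k) Γ(m k²) h(k)⁻¹ ≤ Γ(m)` -/
lemma hQ_conj_mem_of_sq {q m k : ℕ} (hk : (k : ℚ) ≠ 0) {g : SLQ} (hg : g ∈ GamA q (m * k ^ 2)) :
    hQ k hk * g * (hQ k hk)⁻¹ ∈ GamA q m :=
  hQ_conj_mem hk (GamA_mono q (Dvd.intro _ rfl) hg) hg.2.2.1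

/-- (B0.ii) `h(k)⁻¹ Γ(m k⁴) h(k) ≤ Γ(m k²)` -/
lemma hQ_conj'_mem {q m k : ℕ} (hk : (k : ℚ) ≠ 0) {g : SLQ} (hg : g ∈ GamA q (m * k ^ 4)) :
    (hQ k hk)⁻¹ * g * hQ k hk ∈ GamA q (m * k ^ 2) := by
  have hk0 : k ≠ 0 := by rintro rfl; exact hk (by simp)
  have hdvd : m * k ^ 2 ∣ m * k ^ 4 := ⟨k ^ 2, by ring⟩
  obtain ⟨g00, g01, g10, g11⟩ := hg
  refine ⟨?_, ?_, ?_, ?_⟩
  · rw [hQ_conj'_00]; exact g00.of_dvd hdvd
  · rw [hQ_conj'_01]; exact isAwayMul_div_sq' hk0 g01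
  · rw [hQ_conj'_10]; exact IsAwayMul.mul_left (isAway_natCast_pow q k 2) (g10.of_dvd hdvd)
  · rw [hQ_conj'_11]; exact g11.of_dvd hdvd

/-! ### consequences of Step A -/

section

variable {q : ℕ} {V : Type*} [AddCommGroup V]

lemma stab_mul {M : ℕ} {Ψ : SLQ → V} {x y : SLQ} (hy' : y ∈ SLA q)
    (hx : ∀ g ∈ GamA q M, Ψ (x * g * x⁻¹) = Ψ g) (hy : ∀ g ∈ GamA q M, Ψ (y * g * y⁻¹) = Ψ g) :
    ∀ g ∈ GamA q M, Ψ ((x * y) * g * (x * y)⁻¹) = Ψ g := by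
  intro g hg
  have : (x * y) * g * (x * y)⁻¹ = x * (y * g * y⁻¹) * x⁻¹ := by group
  rw [this, hx _ (conj_mem_GamA hy' hg), hy g hg]

lemma StepAHyp.u (hA : StepAHyp q V) {M : ℕ} {Ψ : SLQ → V} (hM : 0 < M) (hMq : M.Coprime q)
    (hΨ : IsParHom q M Ψ) {t : ℚ} (ht : IsAway q t) :
    ∀ g ∈ GamA q M, Ψ (uQ t * g * (uQ t)⁻¹) = Ψ g :=
  fun g hg => (hA M Ψ hM hMq hΨ t ht g hg).1

lemma StepAHyp.l (hA : StepAHyp q V) {M : ℕ} {Ψ : SLQ → V} (hM : 0 < M) (hMq : M.Coprime q)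
    (hΨ : IsParHom q M Ψ) {t : ℚ} (ht : IsAway q t) :
    ∀ g ∈ GamA q M, Ψ (lQ t * g * (lQ t)⁻¹) = Ψ g :=
  fun g hg => (hA M Ψ hM hMq hΨ t ht g hg).2

/-- invariance under `w` -/
lemma StepAHyp.w (hA : StepAHyp q V) {M : ℕ} {Ψ : SLQ → V} (hM : 0 < M) (hMq : M.Coprime q)
    (hΨ : IsParHom q M Ψ) : ∀ g ∈ GamA q M, Ψ (wQ * g * wQ⁻¹) = Ψ g := by
  rw [wQ_eq]
  exact stab_mul (uQ_mem_SLA IsAway.one)
    (stab_mul (lQ_mem_SLA IsAway.one.neg) (hA.u hM hMq hΨ IsAway.one)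
      (hA.l hM hMq hΨ IsAway.one.neg)) (hA.u hM hMq hΨ IsAway.one)

/-- invariance under `w⁻¹` -/
lemma StepAHyp.w_inv (hA : StepAHyp q V) {M : ℕ} {Ψ : SLQ → V} (hM : 0 < M) (hMq : M.Coprime q)
    (hΨ : IsParHom q M Ψ) : ∀ g ∈ GamA q M, Ψ (wQ⁻¹ * g * wQ⁻¹⁻¹) = Ψ g := by
  rw [wQ_inv_eq]
  exact stab_mul (uQ_mem_SLA IsAway.one.neg)
    (stab_mul (lQ_mem_SLA IsAway.one) (hA.u hM hMq hΨ IsAway.one.neg)
      (hA.l hM hMq hΨ IsAway.one)) (hA.u hM hMq hΨ IsAway.one.neg)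

/-- **(B1)+(B2)**: `Φ ∘ c_{h(k)} = Φ` on `Γ(m k⁴)`. -/
theorem stepB_deep (hA : StepAHyp q V) {m k : ℕ} (hm : 0 < m) (hmq : m.Coprime q)
    (hk : (k : ℚ) ≠ 0) (hkq : k.Coprime q) {Φ : SLQ → V} (hΦ : IsParHom q m Φ)
    {g : SLQ} (hg : g ∈ GamA q (m * k ^ 4)) :
    Φ (hQ k hk * g * (hQ k hk)⁻¹) = Φ g := by
  have hk0 : 0 < k := Nat.pos_of_ne_zero (by rintro rfl; exact hk (by simp))
  set H := hQ k hk with hH
  -- the par-hom `Ψ = Φ ∘ c_H` of level `m k²`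
  have hΨ : IsParHom q (m * k ^ 2) (fun g => Φ (H * g * H⁻¹)) :=
    hΦ.comp_conj H (fun g hg => hQ_conj_mem_of_sq hk hg)
  have hM2 : 0 < m * k ^ 2 := Nat.mul_pos hm (pow_pos hk0 2)
  have hM2q : (m * k ^ 2).Coprime q := Nat.Coprime.mul_left hmq (Nat.Coprime.pow_left 2 hkq)
  have hdvd4 : m ∣ m * k ^ 4 := Dvd.intro _ rfl
  have hdvd2 : m ∣ m * k ^ 2 := Dvd.intro _ rfl
  have hkA : IsAway q (k : ℚ) := isAway_natCast q k
  -- the chain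
  have hg1 : wQ⁻¹ * g * wQ⁻¹⁻¹ ∈ GamA q (m * k ^ 4) :=
    conj_mem_GamA (inv_mem (wQ_mem_SLA q)) hg
  have hg2 : uQ k * (wQ⁻¹ * g * wQ⁻¹⁻¹) * (uQ k)⁻¹ ∈ GamA q (m * k ^ 4) :=
    conj_mem_GamA (uQ_mem_SLA hkA) hg1
  set g2 := uQ k * (wQ⁻¹ * g * wQ⁻¹⁻¹) * (uQ k)⁻¹ with hg2def
  have e1 : Φ g2 = Φ g := by
    rw [hg2def, hA.u hm hmq hΦ hkA _ (GamA_mono q hdvd4 hg1),
      hA.w_inv hm hmq hΦ _ (GamA_mono q hdvd4 hg)]
  have hy : H⁻¹ * g2 * H ∈ GamA q (m * k ^ 2) := hQ_conj'_mem hk hg2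
  set y := H⁻¹ * g2 * H with hydef
  have hy' : lQ (-(k : ℚ)) * y * (lQ (-(k : ℚ)))⁻¹ ∈ GamA q (m * k ^ 2) :=
    conj_mem_GamA (lQ_mem_SLA hkA.neg) hy
  have e2 : Φ (H * (lQ (-(k : ℚ)) * y * (lQ (-(k : ℚ)))⁻¹) * H⁻¹) = Φ (H * y * H⁻¹) :=
    hA.l hM2 hM2q hΨ hkA.neg y hy
  have hHy : H * y * H⁻¹ = g2 := by rw [hydef]; group
  have hLk : H * lQ (-(k : ℚ)) * H⁻¹ = lQ (-(1 / (k : ℚ))) := by
    rw [hH, hQ_lQ_conj]
    congr 1
    field_simp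
  have hHy' : H * (lQ (-(k : ℚ)) * y * (lQ (-(k : ℚ)))⁻¹) * H⁻¹ =
      lQ (-(1 / (k : ℚ))) * g2 * (lQ (-(1 / (k : ℚ))))⁻¹ := by
    rw [← hLk, ← hHy]
    group
  have hg3 : lQ (-(1 / (k : ℚ))) * g2 * (lQ (-(1 / (k : ℚ))))⁻¹ ∈ GamA q m := by
    rw [← hHy']
    exact hQ_conj_mem_of_sq hk hy'
  rw [hHy', hHy] at e2
  have e3 : Φ (uQ k * (lQ (-(1 / (k : ℚ))) * g2 * (lQ (-(1 / (k : ℚ))))⁻¹) * (uQ k)⁻¹) =
      Φ (lQ (-(1 / (k : ℚ))) * g2 * (lQ (-(1 / (k : ℚ))))⁻¹) := hA.u hm hmq hΦ hkA _ hg3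
  have hfin : H * g * H⁻¹ =
      uQ k * (lQ (-(1 / (k : ℚ))) * g2 * (lQ (-(1 / (k : ℚ))))⁻¹) * (uQ k)⁻¹ := by
    rw [hg2def]
    conv_lhs => rw [hH, hQ_eq]
    group
  rw [hfin, e3, e2, e1]

end

/-! ### Euler's theorem in `ℤ[1/q]` and CRT -/

lemma isUnit_pow_totient {K : ℕ} {a : ZMod K} (h : IsUnit a) : a ^ K.totient = 1 := by
  obtain ⟨u, rfl⟩ := h
  rw [← Units.val_pow_eq_pow_val, ZMod.pow_totient, Units.val_one]

/-- **Euler in `ℤ[1/q]`**: a unit modulo `K` (prime to `q`) raised to `φ(K)` is `1` modulo `K`. -/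
lemma isAwayMul_pow_totient {q K : ℕ} (hq : q ≠ 0) (hKq : K.Coprime q) {x y : ℚ}
    (hx : IsAway q x) (hy : IsAway q y) (hxy : IsAwayMul q K (x * y - 1)) :
    IsAwayMul q K (x ^ K.totient - 1) := by
  obtain ⟨n, α, hα⟩ := hx
  obtain ⟨l, β, hβ⟩ := hy
  obtain ⟨r, ⟨s, ρ, hρ⟩, hr⟩ := hxy
  have hq0 : (q : ℚ) ≠ 0 := by exact_mod_cast hq
  have hint : α * β * (q : ℤ) ^ s - (q : ℤ) ^ (n + l + s) = K * ρ * (q : ℤ) ^ (n + l) := by
    have : ((α * β * (q : ℤ) ^ s - (q : ℤ) ^ (n + l + s) : ℤ) : ℚ) =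
        ((K * ρ * (q : ℤ) ^ (n + l) : ℤ) : ℚ) := by
      push_cast
      rw [← hα, ← hβ, ← hρ]
      linear_combination ((q : ℚ) ^ (n + l + s)) * hr
    exact_mod_cast this
  -- `α` and `q` are units of `ZMod K`
  have hqU : IsUnit ((q : ZMod K)) := by
    have := (ZMod.unitOfCoprime q hKq.symm).isUnit
    rwa [ZMod.coe_unitOfCoprime] at this
  have hαU : IsUnit ((α : ZMod K)) := by
    have h1 : ((α : ZMod K)) * ((β : ZMod K) * (q : ZMod K) ^ s) = (q : ZMod K) ^ (n + l + s) := by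
      have := congrArg (fun z : ℤ => (z : ZMod K)) hint
      push_cast at this
      rw [ZMod.natCast_self, zero_mul, zero_mul, sub_eq_zero] at this
      rw [← this]
      ring
    exact isUnit_of_mul_isUnit_left (h1 ▸ hqU.pow _)
  set φ := K.totient with hφ
  have hdvd : (K : ℤ) ∣ α ^ φ - ((q : ℤ) ^ n) ^ φ := by
    rw [← ZMod.intCast_zmod_eq_zero_iff_dvd]
    push_cast
    rw [isUnit_pow_totient hαU, isUnit_pow_totient (hqU.pow n), sub_self]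
  obtain ⟨γ, hγ⟩ := hdvd
  refine ⟨(γ : ℚ) / ((q : ℚ) ^ n) ^ φ, ⟨n * φ, γ, ?_⟩, ?_⟩
  · rw [pow_mul]
    field_simp
  · have hx' : x = α / (q : ℚ) ^ n := by
      rw [← hα]
      field_simp
    have hγ' : (α : ℚ) ^ φ - ((q : ℚ) ^ n) ^ φ = K * γ := by exact_mod_cast hγ
    rw [hx', div_pow]
    field_simp
    linear_combination hγ'

/-- CRT: `m A ∩ K A = m K A` for coprime `m`, `K`. -/
lemma isAwayMul_mul_of_coprime {q m K : ℕ} (h : m.Coprime K) {x : ℚ}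
    (hm : IsAwayMul q m x) (hK : IsAwayMul q K x) : IsAwayMul q (m * K) x := by
  obtain ⟨r1, hr1, h1⟩ := hm
  obtain ⟨r2, hr2, h2⟩ := hK
  have hcop : IsCoprime (m : ℤ) (K : ℤ) := Nat.isCoprime_iff_coprime.2 h
  obtain ⟨u, v, huv⟩ := hcop
  have huv' : (u : ℚ) * m + v * K = 1 := by exact_mod_cast huv
  refine ⟨(u : ℚ) * r2 + v * r1, ((IsAway.of_int u).mul hr2).add ((IsAway.of_int v).mul hr1), ?_⟩
  push_cast
  have e1 : x = (u * m) * x + (v * K) * x := by rw [← add_mul, huv', one_mul]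
  calc x = (u * m) * x + (v * K) * x := e1
    _ = (u * m) * (K * r2) + (v * K) * (m * r1) := by rw [← h2, ← h1]
    _ = (m : ℚ) * K * (u * r2 + v * r1) := by ring

/-! ### (B3) -/

/-- powers of a matrix of `SL₂(ℤ[1/q])` which is diagonal modulo `J`. -/
lemma pow_diag_mod {q J : ℕ} {E : SLQ} (hE : E ∈ SLA q) (h01 : IsAwayMul q J (E 0 1))
    (h10 : IsAwayMul q J (E 1 0)) (n : ℕ) :
    IsAwayMul q J ((E ^ n) 0 1) ∧ IsAwayMul q J ((E ^ n) 1 0) ∧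
      IsAwayMul q J ((E ^ n) 0 0 - (E 0 0) ^ n) ∧ IsAwayMul q J ((E ^ n) 1 1 - (E 1 1) ^ n) := by
  induction n with
  | zero =>
    rw [pow_zero, one_00, one_01, one_10, one_11, pow_zero, pow_zero, sub_self]
    exact ⟨IsAwayMul.zero, IsAwayMul.zero, IsAwayMul.zero, IsAwayMul.zero⟩
  | succ n ih =>
    obtain ⟨i01, i10, i00, i11⟩ := ih
    have hEn : E ^ n ∈ SLA q := pow_mem hE n
    rw [pow_succ]
    refine ⟨?_, ?_, ?_, ?_⟩
    · rw [mul_01]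
      exact (IsAwayMul.mul_left hEn.1 h01).add (IsAwayMul.mul_right i01 hE.2.2.2)
    · rw [mul_10]
      exact (IsAwayMul.mul_right i10 hE.1).add (IsAwayMul.mul_left hEn.2.2.2 h10)
    · rw [mul_00, pow_succ]
      have : (E ^ n) 0 0 * E 0 0 + (E ^ n) 0 1 * E 1 0 - E 0 0 ^ n * E 0 0 =
          ((E ^ n) 0 0 - E 0 0 ^ n) * E 0 0 + (E ^ n) 0 1 * E 1 0 := by ring
      rw [this]
      exact (IsAwayMul.mul_right i00 hE.1).add (IsAwayMul.mul_right i01 hE.2.2.1)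
    · rw [mul_11, pow_succ]
      have : (E ^ n) 1 0 * E 0 1 + (E ^ n) 1 1 * E 1 1 - E 1 1 ^ n * E 1 1 =
          (E ^ n) 1 0 * E 0 1 + ((E ^ n) 1 1 - E 1 1 ^ n) * E 1 1 := by ring
      rw [this]
      exact (IsAwayMul.mul_right i10 hE.2.1).add (IsAwayMul.mul_right i11 hE.2.2.2)

lemma isAwayMul_pow_sub_one {q m : ℕ} {a : ℚ} (ha : IsAway q a) (h : IsAwayMul q m (a - 1))
    (n : ℕ) : IsAwayMul q m (a ^ n - 1) := by
  induction n with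
  | zero => rw [pow_zero, sub_self]; exact IsAwayMul.zero
  | succ n ih =>
    have : a ^ (n + 1) - 1 = a ^ n * (a - 1) + (a ^ n - 1) := by ring
    rw [this]
    exact (IsAwayMul.mul_left (by
      clear ih this
      induction n with
      | zero => rw [pow_zero]; exact IsAway.one
      | succ n ih => rw [pow_succ]; exact ih.mul ha) h).add ih

/-- the group `Γ' = {g ∈ Γ(m) : c ∈ m k² A}` -/
def GamB (q m k : ℕ) : Subgroup SLQ where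
  carrier := {g | g ∈ GamA q m ∧ IsAwayMul q (m * k ^ 2) (g 1 0)}
  one_mem' := ⟨one_mem _, by rw [one_10]; exact IsAwayMul.zero⟩
  mul_mem' := by
    rintro x y ⟨hx, hx'⟩ ⟨hy, hy'⟩
    refine ⟨mul_mem hx hy, ?_⟩
    rw [mul_10]
    exact (IsAwayMul.mul_right hx' (GamA_le_SLA q m hy).1).add
      (IsAwayMul.mul_left (GamA_le_SLA q m hx).2.2.2 hy')
  inv_mem' := by
    rintro x ⟨hx, hx'⟩
    refine ⟨inv_mem hx, ?_⟩
    rw [inv_10]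
    exact hx'.neg

section

variable {q : ℕ} {V : Type*} [AddCommGroup V]

/-- **STEP B**: a par-hom of level `m` with values in a group killed by `p` is invariant under
conjugation by `h(k)`, for `k` prime to `m q` with `p ∤ φ(k⁴)`. -/
theorem stepB (hA : StepAHyp q V) {p : ℕ} (hpV : ∀ v : V, p • v = 0) {m k : ℕ} (hq : q ≠ 0)
    (hm : 0 < m) (hmq : m.Coprime q) (hk : (k : ℚ) ≠ 0) (hkq : k.Coprime q) (hkm : k.Coprime m)
    (hpk : (Nat.totient (k ^ 4)).Coprime p) {Φ : SLQ → V} (hΦ : IsParHom q m Φ)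
    {g : SLQ} (hg : g ∈ GamA q m) (hc : IsAwayMul q (m * k ^ 2) (g 1 0)) :
    Φ (hQ k hk * g * (hQ k hk)⁻¹) = Φ g := by
  set H := hQ k hk with hH
  have hTconj : ∀ x ∈ GamB q m k, H * x * H⁻¹ ∈ GamA q m := fun x hx => hQ_conj_mem hk hx.1 hx.2
  have hTA : ∀ x ∈ GamB q m k, x ∈ GamA q m := fun x hx => hx.1
  -- the difference `D`
  set D : SLQ → V := fun x => Φ (H * x * H⁻¹) - Φ x with hD
  have hD_mul : ∀ x ∈ GamB q m k, ∀ y ∈ GamB q m k, D (x * y) = D x + D y := by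
    intro x hx y hy
    have : H * (x * y) * H⁻¹ = (H * x * H⁻¹) * (H * y * H⁻¹) := by group
    simp only [hD]
    rw [this, hΦ.map_mul _ (hTconj x hx) _ (hTconj y hy), hΦ.map_mul _ (hTA x hx) _ (hTA y hy)]
    abel
  have hD_unip : ∀ x ∈ GamB q m k, x 0 0 + x 1 1 = 2 → D x = 0 := by
    intro x hx htr
    simp only [hD]
    rw [hΦ.map_unip _ (hTconj x hx) (by rw [trace_conj]; exact htr), hΦ.map_unip _ (hTA x hx) htr,
      sub_zero]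
  have hD_deep : ∀ x ∈ GamA q (m * k ^ 4), D x = 0 := by
    intro x hx
    simp only [hD]
    rw [stepB_deep hA hm hmq hk hkq hΦ hx, sub_self]
  have hD_one : D 1 = 0 := hD_unip 1 (one_mem _) (by rw [one_00, one_11]; norm_num)
  have hD_pow : ∀ x ∈ GamB q m k, ∀ n : ℕ, D (x ^ n) = n • D x := by
    intro x hx n
    induction n with
    | zero => rw [pow_zero, zero_smul, hD_one]
    | succ n ih => rw [pow_succ, hD_mul _ (pow_mem hx n) _ hx, ih, succ_nsmul]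
  -- the entries of `g`
  have hgT : g ∈ GamB q m k := ⟨hg, hc⟩
  have hgA := GamA_le_SLA q m hg
  obtain ⟨ha, hb, hcA, hd⟩ := hgA
  have hdet := det_eq g
  obtain ⟨r, hr, hcr⟩ := hc
  have hk2 : (((m * k ^ 2 : ℕ) : ℚ)) = (m : ℚ) * (k : ℚ) ^ 2 := by push_cast; ring
  rw [hk2] at hcr
  set a' : ℚ := g 1 1 * (2 - g 0 0 * g 1 1) with ha'
  have ha'A : IsAway q a' := hd.mul (((IsAway.of_int 2).sub (ha.mul hd)))
  have haa' : 1 - g 0 0 * a' = (g 0 1 * g 1 0) ^ 2 := by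
    rw [ha']; linear_combination (g 0 0 * g 1 1 + g 0 1 * g 1 0 - 1) * hdet
  -- the two unipotents
  have hcm : IsAwayMul q m (g 1 0) := hg.2.2.1
  have hL : lQ (-(g 1 0 * a')) ∈ GamB q m k := by
    refine ⟨lQ_mem_GamA (IsAwayMul.mul_right hcm ha'A).neg, ?_⟩
    rw [lQ_10]
    exact (IsAwayMul.mul_right ⟨r, hr, by rw [hcr]; push_cast; ring⟩ ha'A).neg
  have hU : uQ (-(g 0 1 * a')) ∈ GamB q m k := by
    refine ⟨uQ_mem_GamA (IsAwayMul.mul_right hg.2.1 ha'A).neg, ?_⟩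
    rw [uQ_10]
    exact IsAwayMul.zero
  set E := lQ (-(g 1 0 * a')) * g * uQ (-(g 0 1 * a')) with hE
  have hET : E ∈ GamB q m k := mul_mem (mul_mem hL hgT) hU
  have hDE : D E = D g := by
    rw [hE, hD_mul _ (mul_mem hL hgT) _ hU, hD_mul _ hL _ hgT,
      hD_unip _ hL (by rw [lQ_00, lQ_11]; norm_num), hD_unip _ hU (by rw [uQ_00, uQ_11]; norm_num),
      zero_add, add_zero]
  -- entries of `E`
  have hE00 : E 0 0 = g 0 0 := by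
    simp only [hE, mul_00, mul_01, mul_10, mul_11, lQ_00, lQ_01, lQ_10, lQ_11, uQ_00, uQ_01,
      uQ_10, uQ_11]
    ring
  have hE01 : E 0 1 = g 0 1 * (g 0 1 * g 1 0) ^ 2 := by
    simp only [hE, mul_00, mul_01, mul_10, mul_11, lQ_00, lQ_01, lQ_10, lQ_11, uQ_00, uQ_01,
      uQ_10, uQ_11]
    rw [← haa']; ring
  have hE10 : E 1 0 = g 1 0 * (g 0 1 * g 1 0) ^ 2 := by
    simp only [hE, mul_00, mul_01, mul_10, mul_11, lQ_00, lQ_01, lQ_10, lQ_11, uQ_00, uQ_01,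
      uQ_10, uQ_11]
    rw [← haa']; ring
  have hJ : (((m * k ^ 4 : ℕ) : ℚ)) = (m : ℚ) * (k : ℚ) ^ 4 := by push_cast; ring
  have hK4 : (((k ^ 4 : ℕ) : ℚ)) = (k : ℚ) ^ 4 := by push_cast; ring
  have hE01J : IsAwayMul q (m * k ^ 4) (E 0 1) := by
    refine ⟨g 0 1 ^ 3 * (m : ℚ) * r ^ 2, ?_, ?_⟩
    · have h3 : IsAway q (g 0 1 ^ 3) := by
        have := (hb.mul hb).mul hb
        have e : g 0 1 ^ 3 = g 0 1 * g 0 1 * g 0 1 := by ring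
        rwa [e]
      have h2 : IsAway q (r ^ 2) := by rw [pow_two]; exact hr.mul hr
      exact (h3.mul (isAway_natCast q m)).mul h2
    · rw [hE01, hJ, hcr]; ring
  have hE10J : IsAwayMul q (m * k ^ 4) (E 1 0) := by
    refine ⟨g 0 1 ^ 2 * (m : ℚ) ^ 2 * (k : ℚ) ^ 2 * r ^ 3, ?_, ?_⟩
    · have h2 : IsAway q (g 0 1 ^ 2) := by rw [pow_two]; exact hb.mul hb
      have h3 : IsAway q (r ^ 3) := by
        have := (hr.mul hr).mul hr
        have e : r ^ 3 = r * r * r := by ring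
        rwa [e]
      exact ((h2.mul (isAway_natCast_pow q m 2)).mul (isAway_natCast_pow q k 2)).mul h3
    · rw [hE10, hJ, hcr]; ring
  have hbc4 : IsAwayMul q (k ^ 4) ((g 0 1 * g 1 0) ^ 2) := by
    refine ⟨(g 0 1 * (m : ℚ) * r) ^ 2, ?_, ?_⟩
    · have h1 : IsAway q (g 0 1 * (m : ℚ) * r) := (hb.mul (isAway_natCast q m)).mul hr
      rw [pow_two]; exact h1.mul h1
    · rw [hK4, hcr]; ring
  -- `E ^ n ∈ Γ(m k⁴)` for `n = φ(k⁴)`
  set n := Nat.totient (k ^ 4) with hn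
  have hEA : E ∈ SLA q := GamA_le_SLA q m hET.1
  obtain ⟨p01, p10, p00, p11⟩ := pow_diag_mod hEA hE01J hE10J n
  have hcopK : (k ^ 4).Coprime q := Nat.Coprime.pow_left 4 hkq
  have hcopmK : m.Coprime (k ^ 4) := (Nat.Coprime.pow_left 4 hkm).symm
  have hdetE := det_eq E
  have h00 : IsAwayMul q (m * k ^ 4) ((E 0 0) ^ n - 1) := by
    refine isAwayMul_mul_of_coprime hcopmK (isAwayMul_pow_sub_one hEA.1 hET.1.1 n) ?_
    refine isAwayMul_pow_totient hq hcopK hEA.1 ha'A ?_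
    have : E 0 0 * a' - 1 = - (g 0 1 * g 1 0) ^ 2 := by rw [hE00, ← haa']; ring
    rw [this]
    exact hbc4.neg
  have h11 : IsAwayMul q (m * k ^ 4) ((E 1 1) ^ n - 1) := by
    refine isAwayMul_mul_of_coprime hcopmK (isAwayMul_pow_sub_one hEA.2.2.2 hET.1.2.2.2 n) ?_
    refine isAwayMul_pow_totient hq hcopK hEA.2.2.2 hEA.1 ?_
    have : E 1 1 * E 0 0 - 1 = E 0 1 * E 1 0 := by linear_combination hdetE
    rw [this]
    exact (IsAwayMul.mul_right hE01J hEA.2.2.1).of_dvd (Dvd.intro_left _ rfl)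
  have hEn : E ^ n ∈ GamA q (m * k ^ 4) := by
    refine ⟨?_, p01, p10, ?_⟩
    · have : (E ^ n) 0 0 - 1 = ((E ^ n) 0 0 - E 0 0 ^ n) + (E 0 0 ^ n - 1) := by ring
      rw [this]; exact p00.add h00
    · have : (E ^ n) 1 1 - 1 = ((E ^ n) 1 1 - E 1 1 ^ n) + (E 1 1 ^ n - 1) := by ring
      rw [this]; exact p11.add h11
  have hnD : n • D E = 0 := by rw [← hD_pow E hET n]; exact hD_deep _ hEn
  have hpD : p • D E = 0 := hpV _
  have hDE0 : D E = 0 := by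
    have hcop : IsCoprime (n : ℤ) (p : ℤ) := Nat.isCoprime_iff_coprime.2 hpk
    obtain ⟨u, v, huv⟩ := hcop
    have : (u * (n : ℤ) + v * (p : ℤ)) • D E = 0 := by
      rw [add_smul, mul_smul, mul_smul, natCast_zsmul, natCast_zsmul, hnD, hpD, smul_zero,
        smul_zero, add_zero]
    rwa [huv, one_smul] at this
  have : D g = 0 := by rw [← hDE, hDE0]
  simp only [hD] at this
  exact sub_eq_zero.1 this

end

section

variable {q : ℕ} {V : Type*} [AddCommGroup V]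

/-- **STEP B for a prime `k = ℓ`** with `ℓ ≢ 0, 1 mod p`, `ℓ ∤ m q`. -/
theorem stepB_prime (hA : StepAHyp q V) {p : ℕ} (hp : p.Prime) (hpV : ∀ v : V, p • v = 0)
    {m ℓ : ℕ} (hq : q ≠ 0) (hm : 0 < m) (hmq : m.Coprime q) (hℓ : ℓ.Prime) (hℓq : ¬ ℓ ∣ q)
    (hℓm : ¬ ℓ ∣ m) (hpℓ : ¬ p ∣ ℓ) (hpℓ1 : ¬ p ∣ ℓ - 1) {Φ : SLQ → V} (hΦ : IsParHom q m Φ)
    {g : SLQ} (hg : g ∈ GamA q m) (hc : IsAwayMul q (m * ℓ ^ 2) (g 1 0)) :
    Φ (hQ ℓ (by exact_mod_cast hℓ.ne_zero) * g * (hQ ℓ (by exact_mod_cast hℓ.ne_zero))⁻¹) = Φ g := by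
  refine stepB hA hpV hq hm hmq _ ((Nat.Prime.coprime_iff_not_dvd hℓ).2 hℓq)
    ((Nat.Prime.coprime_iff_not_dvd hℓ).2 hℓm) ?_ hΦ hg hc
  rw [Nat.totient_prime_pow hℓ (by norm_num : 0 < 4)]
  refine Nat.Coprime.symm ((Nat.Prime.coprime_iff_not_dvd hp).2 ?_)
  intro h
  rcases (Nat.Prime.dvd_mul hp).1 h with h1 | h1
  · exact hpℓ (hp.dvd_of_dvd_pow h1)
  · exact hpℓ1 h1

end

end Fermat.Agent.S41.CSP54
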