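/-
S41 / C4 [CSP], helper54: HEDGE copy of STEP C of helper11's proof (#3042): a par-hom `Φ` of level
`m` with values in an abelian group killed by an odd prime `p` vanishes, given STEP A (`StepAHyp`)
and STEP B (`stepB_prime`, proved in `StepB.lean` from `StepAHyp`).
-/
import Mathlib
import Fermat.Agent.S41.CSPPlug54.StepB

set_option autoImplicit false
set_option linter.unusedSimpArgs false
set_option linter.unusedVariables false
set_option linter.unusedSectionVars false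

namespace Fermat.Agent.S41.CSP54

open Matrix Fermat.Agent.S41.Amalgam95

section Symbol

variable {q m : ℕ} {V : Type*} [AddCommGroup V] {Φ : SLQ → V}

/-- (S1) the value of a par-hom depends only on the first column. -/
lemma IsParHom.map_eq_of_col0 (hΦ : IsParHom q m Φ) {X Z : SLQ} (hX : X ∈ GamA q m)
    (hZ : Z ∈ GamA q m) (h0 : X 0 0 = Z 0 0) (h1 : X 1 0 = Z 1 0) : Φ X = Φ Z := by
  have hdZ := det_eq Z
  have hdX := det_eq X
  have hmem : Z⁻¹ * X ∈ GamA q m := mul_mem (inv_mem hZ) hX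
  have h00 : (Z⁻¹ * X) 0 0 = 1 := by
    rw [mul_00, inv_00, inv_01, h0, h1]; linear_combination hdZ
  have h10 : (Z⁻¹ * X) 1 0 = 0 := by
    rw [mul_10, inv_10, inv_11, h0, h1]; ring
  have h11 : (Z⁻¹ * X) 1 1 = 1 := by
    have := det_eq (Z⁻¹ * X)
    rw [h00, h10, mul_zero, sub_zero, one_mul] at this
    exact this
  have hunip : Φ (Z⁻¹ * X) = 0 := hΦ.map_unip _ hmem (by rw [h00, h11]; norm_num)
  have : X = Z * (Z⁻¹ * X) := by group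
  rw [this, hΦ.map_mul _ hZ _ hmem, hunip, add_zero]

/-- (S1)+(S2): the value at a matrix with first column `(a, c)` depends only on `a` and on `c`
modulo `m a`. -/
lemma IsParHom.map_eq_of_col (hΦ : IsParHom q m Φ) {X Z : SLQ} (hX : X ∈ GamA q m)
    (hZ : Z ∈ GamA q m) (h0 : X 0 0 = Z 0 0) {s : ℚ} (hs : IsAway q s)
    (h1 : X 1 0 = Z 1 0 + (m : ℚ) * s * Z 0 0) : Φ X = Φ Z := by
  have hL : lQ ((m : ℚ) * s) ∈ GamA q m := lQ_mem_GamA (IsAwayMul.of_mul hs)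
  have hLZ : lQ ((m : ℚ) * s) * Z ∈ GamA q m := mul_mem hL hZ
  rw [hΦ.map_eq_of_col0 hX hLZ (by rw [mul_00, h0]; simp) (by rw [mul_10, h1]; simp; ring),
    hΦ.map_mul _ hL _ hZ, hΦ.map_unip _ hL (by simp; norm_num), zero_add]

end Symbol

section NumberTheory

/-- integer representatives modulo `d` (prime to `q`) of elements of `ℤ[1/q]`. -/
lemma exists_int_sub_isAwayMul {q d : ℕ} (hdq : d.Coprime q) {x : ℚ} (hx : IsAway q x) :
    ∃ X : ℤ, IsAwayMul q d (x - X) := by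
  have hx' := hx
  obtain ⟨n, ξ, hξ⟩ := hx
  have hcop : IsCoprime ((q : ℤ) ^ n) (d : ℤ) :=
    IsCoprime.pow_left (Nat.isCoprime_iff_coprime.2 hdq.symm)
  obtain ⟨u, v, huv⟩ := hcop
  have huv' : (u : ℚ) * (q : ℚ) ^ n + v * d = 1 := by exact_mod_cast huv
  refine ⟨ξ * u, x * v, hx'.mul (IsAway.of_int v), ?_⟩
  push_cast
  rw [← hξ]
  linear_combination (-x) * huv'

/-- cancellation of an integer prime to `d` -/
lemma isAwayMul_of_mul_int {q d : ℕ} {z : ℚ} {n : ℤ} (hz : IsAway q z)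
    (hcop : IsCoprime n (d : ℤ)) (h : IsAwayMul q d (z * n)) : IsAwayMul q d z := by
  obtain ⟨u, v, huv⟩ := hcop
  obtain ⟨r, hr, hzr⟩ := h
  have huv' : (u : ℚ) * n + v * d = 1 := by exact_mod_cast huv
  refine ⟨u * r + z * v, ((IsAway.of_int u).mul hr).add (hz.mul (IsAway.of_int v)), ?_⟩
  linear_combination (-z) * huv' + u * hzr

lemma not_isAwayMul_one {q d : ℕ} (hd : d.Prime) (hdq : ¬ d ∣ q) : ¬ IsAwayMul q d 1 := by
  rintro ⟨r, ⟨n, ρ, hρ⟩, h1⟩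
  have h2 : ((q : ℚ)) ^ n = d * ρ := by rw [← hρ]; linear_combination ((q : ℚ) ^ n) * h1
  have h3 : ((q : ℤ)) ^ n = d * ρ := by exact_mod_cast h2
  have h4 : (d : ℤ) ∣ ((q ^ n : ℕ) : ℤ) := by push_cast; exact Dvd.intro _ h3.symm
  exact hdq (hd.dvd_of_dvd_pow (Int.natCast_dvd_natCast.1 h4))

/-- every unit of `𝔽_d` is a square, minus a square, or `-1` is a square. -/
lemma sq_trichotomy {d : ℕ} (hd : d.Prime) {X : ℤ} :
    (∃ y : ℤ, (d : ℤ) ∣ X - y ^ 2) ∨ (∃ y : ℤ, (d : ℤ) ∣ -X - y ^ 2) ∨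
      (∃ y : ℤ, (d : ℤ) ∣ -1 - y ^ 2) := by
  have : Fact d.Prime := Fact.mk hd
  have key : ∀ z : ZMod d, IsSquare z → ∀ Z : ℤ, (Z : ZMod d) = z →
      ∃ y : ℤ, (d : ℤ) ∣ Z - y ^ 2 := by
    rintro z ⟨w, rfl⟩ Z hZ
    obtain ⟨y, rfl⟩ := ZMod.intCast_surjective w
    refine ⟨y, ?_⟩
    rw [← ZMod.intCast_zmod_eq_zero_iff_dvd]
    push_cast
    rw [hZ]
    ring
  by_cases h1 : IsSquare (X : ZMod d)
  · exact Or.inl (key _ h1 X rfl)
  by_cases h2 : IsSquare (-(X : ZMod d))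
  · exact Or.inr (Or.inl (key _ h2 (-X) (by push_cast; rfl)))
  · right; right
    have c1 := quadraticChar_neg_one_iff_not_isSquare.2 h1
    have c2 := quadraticChar_neg_one_iff_not_isSquare.2 h2
    have hχ : quadraticChar (ZMod d) (-1) = 1 := by
      have hmul : quadraticChar (ZMod d) (-(X : ZMod d)) =
          quadraticChar (ZMod d) (-1) * quadraticChar (ZMod d) X := by
        rw [← map_mul]; congr 1; ring
      rw [c1, c2] at hmul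
      linarith
    have h3 : IsSquare (-1 : ZMod d) :=
      (quadraticChar_one_iff_isSquare (neg_ne_zero.2 one_ne_zero)).1 hχ
    exact key _ h3 (-1) (by push_cast; rfl)

/-- Dirichlet + CRT: a prime `ℓ ≡ y mod d`, `ℓ ≡ 2 mod p`, as large as we like. -/
lemma exists_prime_C1 {d p : ℕ} (hd : d.Prime) (hp : p.Prime) (hdp : d ≠ p) (hp2 : p ≠ 2) {y : ℤ}
    (hy : ¬ (d : ℤ) ∣ y) (B : ℕ) :
    ∃ ℓ : ℕ, ℓ.Prime ∧ B < ℓ ∧ (d : ℤ) ∣ (ℓ : ℤ) - y ∧ ¬ p ∣ ℓ ∧ ¬ p ∣ ℓ - 1 := by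
  have hcop : d.Coprime p := (Nat.coprime_primes hd hp).2 hdp
  have hd0 : (d : ℤ) ≠ 0 := by exact_mod_cast hd.ne_zero
  set y0 : ℕ := (y % d).toNat with hy0
  have hy0' : (y0 : ℤ) = y % d := Int.toNat_of_nonneg (Int.emod_nonneg _ hd0)
  obtain ⟨a, ha1, ha2⟩ := Nat.chineseRemainder hcop y0 2
  have hp_of_dvd : ∀ n : ℕ, n ≡ 2 [MOD p] → ¬ p ∣ n := by
    intro n hn h
    have : p ∣ 2 := (Nat.modEq_zero_iff_dvd.1 (hn.symm.trans (Nat.modEq_zero_iff_dvd.2 h)))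
    exact hp2 ((Nat.prime_dvd_prime_iff_eq hp Nat.prime_two).1 this)
  have hacop : a.Coprime (d * p) := by
    apply Nat.Coprime.mul_right
    · rw [Nat.coprime_comm, Nat.Prime.coprime_iff_not_dvd hd]
      intro h
      apply hy
      have h1 : d ∣ y0 := Nat.modEq_zero_iff_dvd.1 (ha1.symm.trans (Nat.modEq_zero_iff_dvd.2 h))
      have h2 : (d : ℤ) ∣ y % d := by rw [← hy0']; exact_mod_cast h1
      have h3 := Int.emod_add_mul_ediv y d
      rw [← h3]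
      exact dvd_add h2 (Dvd.intro _ rfl)
    · rw [Nat.coprime_comm, Nat.Prime.coprime_iff_not_dvd hp]
      exact hp_of_dvd a ha2
  obtain ⟨ℓ, hℓB, hℓ, hℓa⟩ :=
    Nat.forall_exists_prime_gt_and_modEq B (Nat.mul_ne_zero hd.ne_zero hp.ne_zero) hacop
  have hℓ2 : ℓ ≡ 2 [MOD p] := (Nat.ModEq.of_mul_left d hℓa).trans ha2
  refine ⟨ℓ, hℓ, hℓB, ?_, hp_of_dvd ℓ hℓ2, ?_⟩
  · have h1 : ℓ ≡ y0 [MOD d] := (Nat.ModEq.of_mul_right p hℓa).trans ha1
    have h2 : (ℓ : ℤ) ≡ (y0 : ℤ) [ZMOD d] := Int.natCast_modEq_iff.2 h1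
    rw [hy0'] at h2
    have h3 : (ℓ : ℤ) ≡ y [ZMOD d] := h2.trans (Int.mod_modEq y d)
    exact Int.modEq_iff_dvd.1 h3.symm
  · intro h
    have hℓ1 : 1 ≤ ℓ := hℓ.one_lt.le
    have h1 : 1 ≡ ℓ [MOD p] := (Nat.modEq_iff_dvd' hℓ1).2 h
    have h21 : 1 ≡ 2 [MOD p] := h1.trans hℓ2
    have : p ∣ 2 - 1 := (Nat.modEq_iff_dvd' (by norm_num)).1 h21
    have : p ∣ 1 := by simpa using this
    exact hp.one_lt.ne' (Nat.dvd_one.1 this)

/-- an integer of `K ℤ[1/q]` is divisible by `K` (for `K` prime to `q`). -/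
lemma dvd_of_isAwayMul_int {q K : ℕ} (hKq : K.Coprime q) {k : ℤ} (h : IsAwayMul q K (k : ℚ)) :
    (K : ℤ) ∣ k := by
  obtain ⟨r, ⟨n, ρ, hρ⟩, hkr⟩ := h
  have h1 : (k : ℚ) * (q : ℚ) ^ n = K * ρ := by rw [← hρ, hkr]; ring
  have h2 : k * (q : ℤ) ^ n = K * ρ := by exact_mod_cast h1
  have hcop : IsCoprime (K : ℤ) ((q : ℤ) ^ n) :=
    IsCoprime.pow_right (Nat.isCoprime_iff_coprime.2 hKq)
  exact hcop.dvd_of_dvd_mul_right (Dvd.intro _ h2.symm)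

/-- Dirichlet for an integer residue class. -/
lemma exists_prime_int_modEq {n : ℕ} (hn : n ≠ 0) {z : ℤ} (hz : IsCoprime z (n : ℤ)) (B : ℕ) :
    ∃ d : ℕ, d.Prime ∧ B < d ∧ (n : ℤ) ∣ (d : ℤ) - z := by
  have hn0 : (n : ℤ) ≠ 0 := by exact_mod_cast hn
  set z0 : ℕ := (z % n).toNat with hz0
  have hz0' : (z0 : ℤ) = z % n := Int.toNat_of_nonneg (Int.emod_nonneg _ hn0)
  have hcop : z0.Coprime n := by
    apply Nat.isCoprime_iff_coprime.1
    rw [hz0']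
    have h3 := Int.emod_add_mul_ediv z n
    have : z % n = z - n * (z / n) := by linarith
    rw [this]
    obtain ⟨u, v, huv⟩ := hz
    exact ⟨u, v + u * (z / n), by linear_combination huv⟩
  obtain ⟨d, hdB, hd, hda⟩ := Nat.forall_exists_prime_gt_and_modEq B hn hcop
  refine ⟨d, hd, hdB, ?_⟩
  have h2 : (d : ℤ) ≡ (z0 : ℤ) [ZMOD n] := Int.natCast_modEq_iff.2 hda
  rw [hz0'] at h2
  have h3 : (d : ℤ) ≡ z [ZMOD n] := h2.trans (Int.mod_modEq z n)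
  exact Int.modEq_iff_dvd.1 h3.symm

/-- **Dirichlet in `ℤ[1/q]`** (for (C4)): if `a, c ∈ ℤ[1/q]` are coprime and `c ≠ 0`, then
`a + t c` is a (large) prime number for some `t ∈ ℤ[1/q]`. -/
lemma exists_prime_add_mul {q : ℕ} (hq : q.Prime) {a c x y : ℚ} (ha : IsAway q a)
    (hc : IsAway q c) (hx : IsAway q x) (hy : IsAway q y) (hc0 : c ≠ 0)
    (hcop : a * x + c * y = 1) (B : ℕ) :
    ∃ (t : ℚ) (d : ℕ), IsAway q t ∧ d.Prime ∧ B < d ∧ (d : ℚ) = a + t * c := by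
  have hq0 : (q : ℚ) ≠ 0 := by exact_mod_cast hq.ne_zero
  obtain ⟨s, γ, hγ⟩ := hc
  have hγ0 : γ ≠ 0 := by
    rintro rfl
    have : c * (q : ℚ) ^ s = 0 := by rw [hγ]; simp
    rcases mul_eq_zero.1 this with h | h
    · exact hc0 h
    · exact pow_ne_zero _ hq0 h
  have hn : γ.natAbs ≠ 0 := Int.natAbs_ne_zero.2 hγ0
  obtain ⟨e, n', hqn', hnn'⟩ := Nat.exists_eq_pow_mul_and_not_dvd hn q hq.ne_one
  have hn'q : n'.Coprime q := ((Nat.Prime.coprime_iff_not_dvd hq).2 hqn').symm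
  have hn'0 : n' ≠ 0 := by
    rintro rfl
    exact hqn' (dvd_zero _)
  have hn'Q : (n' : ℚ) ≠ 0 := by exact_mod_cast hn'0
  -- `γ = ε q^e n'` with `ε = ± 1`
  obtain ⟨ε, hε, hγε⟩ : ∃ ε : ℤ, (ε = 1 ∨ ε = -1) ∧ γ = ε * ((q : ℤ) ^ e * n') := by
    rcases Int.natAbs_eq γ with h | h
    · exact ⟨1, Or.inl rfl, by rw [h, hnn']; push_cast; ring⟩
    · exact ⟨-1, Or.inr rfl, by rw [h, hnn']; push_cast; ring⟩
  have hε2 : (ε : ℚ) * ε = 1 := by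
    rcases hε with rfl | rfl <;> norm_num
  have hcγ : c * (q : ℚ) ^ s = ε * ((q : ℚ) ^ e * n') := by rw [hγ, hγε]; push_cast; ring
  -- `c = n' c'` and `n' = c ω` with `c', ω ∈ ℤ[1/q]`
  have hc' : IsAway q (c / n') := ⟨s, ε * (q : ℤ) ^ e, by
    push_cast
    field_simp
    linear_combination hcγ⟩
  have hω : IsAway q ((n' : ℚ) / c) := ⟨e, ε * (q : ℤ) ^ s, by
    push_cast
    have hc1 : c = ε * ((q : ℚ) ^ e * n') / (q : ℚ) ^ s := by
      field_simp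
      linear_combination hcγ
    rw [hc1]
    have hεQ : (ε : ℚ) ≠ 0 := by
      intro h
      rw [h] at hε2
      norm_num at hε2
    field_simp
    linear_combination (-1 : ℚ) * hε2⟩
  -- `a` is a unit modulo `n'`; integer representative `a₁`
  obtain ⟨a1, r1, hr1, har1⟩ := exists_int_sub_isAwayMul hn'q ha
  have hunit : IsAwayMul q n' ((a1 : ℚ) * x - 1) := by
    refine ⟨-(c / n') * y - r1 * x, ((hc'.neg).mul hy).sub (hr1.mul hx), ?_⟩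
    field_simp
    have : (a1 : ℚ) = a - n' * r1 := by linarith
    rw [this]
    linear_combination hcop
  have ha1cop : IsCoprime a1 (n' : ℤ) := by
    obtain ⟨u, ξ, hξ⟩ := hx
    -- `n' ∣ a₁ ξ - q^u`
    have h1 : IsAwayMul q n' (((a1 * ξ - (q : ℤ) ^ u : ℤ) : ℚ)) := by
      have := IsAwayMul.mul_right hunit (isAway_natCast_pow q q u)
      have e : ((a1 * ξ - (q : ℤ) ^ u : ℤ) : ℚ) = ((a1 : ℚ) * x - 1) * (q : ℚ) ^ u := by
        push_cast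
        rw [← hξ]
        ring
      rwa [e]
    obtain ⟨κ, hκ⟩ := dvd_of_isAwayMul_int hn'q h1
    -- `a₁ ξ - n' κ = q^u`, and `q^u` is prime to `n'`
    have hcopq : IsCoprime ((q : ℤ) ^ u) (n' : ℤ) :=
      IsCoprime.pow_left (Nat.isCoprime_iff_coprime.2 hn'q.symm)
    have : IsCoprime (a1 * ξ) (n' : ℤ) := by
      have e : a1 * ξ = (q : ℤ) ^ u + n' * κ := by linarith
      rw [e]
      exact (IsCoprime.add_mul_left_left_iff).2 hcopq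
    exact IsCoprime.of_mul_left_left this
  obtain ⟨d, hd, hdB, r2, hr2⟩ := exists_prime_int_modEq hn'0 ha1cop B
  refine ⟨((r2 : ℚ) - r1) * ((n' : ℚ) / c), d, ((IsAway.of_int r2).sub hr1).mul hω, hd, hdB, ?_⟩
  have hr2' : (d : ℚ) - a1 = n' * r2 := by exact_mod_cast hr2
  field_simp
  linear_combination hr2' - har1

end NumberTheory

section StepC

variable {q m : ℕ} {V : Type*} [AddCommGroup V] {Φ : SLQ → V}

/-- **(C1)**: `T(d, ℓ² c) = T(d, c)`. -/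
lemma map_eq_of_sq (hA : StepAHyp q V) {p : ℕ} (hp : p.Prime) (hpV : ∀ v : V, p • v = 0)
    (hq : q ≠ 0) (hm : 0 < m) (hmq : m.Coprime q) (hΦ : IsParHom q m Φ)
    {ℓ : ℕ} (hℓ : ℓ.Prime) (hℓq : ¬ ℓ ∣ q) (hℓm : ¬ ℓ ∣ m) (hpℓ : ¬ p ∣ ℓ) (hpℓ1 : ¬ p ∣ ℓ - 1)
    {d : ℕ} (hd : d.Prime) (hdℓ : d ≠ ℓ)
    {g g' : SLQ} (hg : g ∈ GamA q m) (hg' : g' ∈ GamA q m) (h0 : g 0 0 = d) (h0' : g' 0 0 = d)
    {s : ℚ} (hs : IsAway q s) (h1 : g' 1 0 = (ℓ : ℚ) ^ 2 * g 1 0 + (m : ℚ) * s * d) :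
    Φ g' = Φ g := by
  -- Bezout `u ℓ² + v d = 1`
  have hcop : IsCoprime ((ℓ : ℤ) ^ 2) (d : ℤ) := by
    apply IsCoprime.pow_left
    exact Nat.isCoprime_iff_coprime.2 ((Nat.coprime_primes hℓ hd).2 (Ne.symm hdℓ))
  obtain ⟨u, v, huv⟩ := hcop
  have huv' : (u : ℚ) * (ℓ : ℚ) ^ 2 + v * d = 1 := by exact_mod_cast huv
  have hdet := det_eq g
  obtain ⟨g00, g01, g10, g11⟩ := hg
  have hgA := GamA_le_SLA q m (show g ∈ GamA q m from ⟨g00, g01, g10, g11⟩)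
  -- the element with first column `(d, ℓ² c)`
  set g3 : SLQ := mkQ d (g 0 1 * u) ((ℓ : ℚ) ^ 2 * g 1 0) (g 1 1 - g 0 1 * g 1 0 * v) (by
    rw [h0] at hdet
    linear_combination hdet - (g 0 1 * g 1 0) * huv') with hg3
  have hg3mem : g3 ∈ GamA q m := by
    refine ⟨?_, ?_, ?_, ?_⟩
    · rw [hg3, mkQ_00, ← h0]; exact g00
    · rw [hg3, mkQ_01]; exact IsAwayMul.mul_right g01 (IsAway.of_int u)
    · rw [hg3, mkQ_10]; exact IsAwayMul.mul_left (isAway_natCast_pow q ℓ 2) g10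
    · rw [hg3, mkQ_11]
      have : g 1 1 - g 0 1 * g 1 0 * v - 1 = (g 1 1 - 1) - g 0 1 * (g 1 0 * v) := by ring
      rw [this]
      exact g11.sub (IsAwayMul.mul_right g01 (hgA.2.2.1.mul (IsAway.of_int v)))
  have hg3c : IsAwayMul q (m * ℓ ^ 2) (g3 1 0) := by
    obtain ⟨r, hr, hcr⟩ := g10
    refine ⟨r, hr, ?_⟩
    rw [hg3, mkQ_10, hcr]; push_cast; ring
  have hℓ0 : ((ℓ : ℚ)) ≠ 0 := by exact_mod_cast hℓ.ne_zero
  have hB := stepB_prime hA hp hpV hq hm hmq hℓ hℓq hℓm hpℓ hpℓ1 hΦ hg3mem hg3c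
  have hconj : hQ ℓ hℓ0 * g3 * (hQ ℓ hℓ0)⁻¹ ∈ GamA q m := hQ_conj_mem hℓ0 hg3mem hg3c
  have e1 : Φ (hQ ℓ hℓ0 * g3 * (hQ ℓ hℓ0)⁻¹) = Φ g := by
    refine hΦ.map_eq_of_col0 hconj ⟨g00, g01, g10, g11⟩ ?_ ?_
    · rw [hQ_conj_00, hg3, mkQ_00, h0]
    · rw [hQ_conj_10, hg3, mkQ_10]; field_simp
  have e2 : Φ g' = Φ g3 := by
    refine hΦ.map_eq_of_col hg' hg3mem ?_ hs ?_
    · rw [h0', hg3, mkQ_00]
    · rw [h1, hg3, mkQ_10, mkQ_00]
  rw [e2, ← hB, e1]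

/-- **(C2)**: the transpose `[[d, c],[b, e]]` of `g = [[d, b],[c, e]]` has `Φ = - Φ g`. -/
lemma map_transpose (hA : StepAHyp q V) (hm : 0 < m) (hmq : m.Coprime q) (hΦ : IsParHom q m Φ)
    {g : SLQ} (hg : g ∈ GamA q m) :
    ∃ g' ∈ GamA q m, g' 0 0 = g 0 0 ∧ g' 1 0 = g 0 1 ∧ g' 0 1 = g 1 0 ∧ g' 1 1 = g 1 1 ∧
      Φ g' = - Φ g := by
  refine ⟨wQ * g⁻¹ * wQ⁻¹, conj_mem_GamA (wQ_mem_SLA q) (inv_mem hg), ?_, ?_, ?_, ?_, ?_⟩
  · simp only [mul_00, mul_01, mul_10, mul_11, inv_00, inv_01, inv_10, inv_11, wQ_00, wQ_01,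
      wQ_10, wQ_11]; ring
  · simp only [mul_00, mul_01, mul_10, mul_11, inv_00, inv_01, inv_10, inv_11, wQ_00, wQ_01,
      wQ_10, wQ_11]; ring
  · simp only [mul_00, mul_01, mul_10, mul_11, inv_00, inv_01, inv_10, inv_11, wQ_00, wQ_01,
      wQ_10, wQ_11]; ring
  · simp only [mul_00, mul_01, mul_10, mul_11, inv_00, inv_01, inv_10, inv_11, wQ_00, wQ_01,
      wQ_10, wQ_11]; ring
  · rw [hA.w hm hmq hΦ _ (inv_mem hg), hΦ.map_inv hg]

/-- entries of `u(t) l(y) u(t)⁻¹` -/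
lemma uQ_lQ_conj_00 (t y : ℚ) : (uQ t * lQ y * (uQ t)⁻¹) 0 0 = 1 + t * y := by
  simp only [mul_00, mul_01, mul_10, mul_11, inv_00, inv_01, inv_10, inv_11, uQ_00, uQ_01,
    uQ_10, uQ_11, lQ_00, lQ_01, lQ_10, lQ_11]; ring
lemma uQ_lQ_conj_10 (t y : ℚ) : (uQ t * lQ y * (uQ t)⁻¹) 1 0 = y := by
  simp only [mul_00, mul_01, mul_10, mul_11, inv_00, inv_01, inv_10, inv_11, uQ_00, uQ_01,
    uQ_10, uQ_11, lQ_00, lQ_01, lQ_10, lQ_11]; ring

/-- **STEP C, prime upper-left entry**: `T(d, c) = 0` for every prime `d > m`, `d ∤ q`, `d ≠ p`. -/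
theorem stepC_prime (hA : StepAHyp q V) {p : ℕ} (hp : p.Prime) (hp2 : p ≠ 2)
    (hpV : ∀ v : V, p • v = 0) (hq : q ≠ 0) (hm : 0 < m) (hmq : m.Coprime q)
    (hΦ : IsParHom q m Φ) {d : ℕ} (hd : d.Prime) (hdm : m < d) (hdq : ¬ d ∣ q) (hdp : d ≠ p)
    {g : SLQ} (hg : g ∈ GamA q m) (h0 : g 0 0 = d) : Φ g = 0 := by
  have hdqc : d.Coprime q := (Nat.Prime.coprime_iff_not_dvd hd).2 hdq
  have hdm' : ¬ d ∣ m := Nat.not_dvd_of_pos_of_lt hm hdm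
  have hmdc : m.Coprime d := ((Nat.Prime.coprime_iff_not_dvd hd).2 hdm').symm
  have hq0 : 0 < q := Nat.pos_of_ne_zero hq
  -- step 0: make the lower-left entry `m X` with `X` an integer
  obtain ⟨r, hr, hcr⟩ := hg.2.2.1
  obtain ⟨X, s0, hs0, hXs⟩ := exists_int_sub_isAwayMul hdqc hr
  have hL : lQ (-((m : ℚ) * s0)) ∈ GamA q m := lQ_mem_GamA (IsAwayMul.of_mul hs0).neg
  set g1 := lQ (-((m : ℚ) * s0)) * g with hg1
  have hg1mem : g1 ∈ GamA q m := mul_mem hL hg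
  have e01 : Φ g1 = Φ g := by
    rw [hg1, hΦ.map_mul _ hL _ hg, hΦ.map_unip _ hL (by rw [lQ_00, lQ_11]; norm_num), zero_add]
  have h100 : g1 0 0 = d := by
    rw [hg1, mul_00, lQ_00, lQ_01, h0]; ring
  have h110 : g1 1 0 = (m : ℚ) * X := by
    rw [hg1, mul_10, lQ_10, lQ_11, h0, hcr]; linear_combination (m : ℚ) * hXs
  rw [← e01]
  have hg1A := GamA_le_SLA q m hg1mem
  have hdet1 := det_eq g1
  -- `d ∤ X`
  have hdX : ¬ (d : ℤ) ∣ X := by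
    rintro ⟨X', hX'⟩
    refine not_isAwayMul_one hd hdq ⟨g1 1 1 - g1 0 1 * m * X', ?_, ?_⟩
    · exact hg1A.2.2.2.sub ((hg1A.2.1.mul (isAway_natCast q m)).mul (IsAway.of_int X'))
    · rw [h100, h110, hX'] at hdet1
      push_cast at hdet1
      linear_combination (-1 : ℚ) * hdet1
  -- the two unipotents with first columns `(d, ± m)`
  obtain ⟨r0, hr0, hdr0⟩ := hg.1
  rw [h0] at hdr0
  have hlm : lQ (m : ℚ) ∈ GamA q m :=
    lQ_mem_GamA (by simpa using (IsAwayMul.of_mul (q := q) (M := m) IsAway.one))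
  have hlm' : lQ (-(m : ℚ)) ∈ GamA q m :=
    lQ_mem_GamA (by simpa using (IsAwayMul.of_mul (q := q) (M := m) IsAway.one).neg)
  have hgm : uQ r0 * lQ (m : ℚ) * (uQ r0)⁻¹ ∈ GamA q m := conj_mem_GamA (uQ_mem_SLA hr0) hlm
  have hgm' : uQ (-r0) * lQ (-(m : ℚ)) * (uQ (-r0))⁻¹ ∈ GamA q m :=
    conj_mem_GamA (uQ_mem_SLA hr0.neg) hlm'
  have hΦgm : Φ (uQ r0 * lQ (m : ℚ) * (uQ r0)⁻¹) = 0 :=
    hΦ.map_unip _ hgm (by rw [trace_conj, lQ_00, lQ_11]; norm_num)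
  have hΦgm' : Φ (uQ (-r0) * lQ (-(m : ℚ)) * (uQ (-r0))⁻¹) = 0 :=
    hΦ.map_unip _ hgm' (by rw [trace_conj, lQ_00, lQ_11]; norm_num)
  -- the generic case: `X ≡ ε y²`, and `T(d, m ε) = 0`
  have hcase : ∀ (ε : ℤ) (g2 : SLQ), g2 ∈ GamA q m → g2 0 0 = d → g2 1 0 = (m : ℚ) * ε →
      Φ g2 = 0 → (∃ y : ℤ, (d : ℤ) ∣ X - ε * y ^ 2) → Φ g1 = 0 := by
    rintro ε g2 hg2 h200 h210 hΦ2 ⟨y, hy⟩
    have hdy : ¬ (d : ℤ) ∣ y := by
      intro h
      apply hdX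
      have : (d : ℤ) ∣ ε * y ^ 2 := Dvd.dvd.mul_left (dvd_pow h (by norm_num)) ε
      have := dvd_add hy this
      simpa using this
    obtain ⟨ℓ, hℓ, hℓB, hℓy, hpℓ, hpℓ1⟩ := exists_prime_C1 hd hp hdp hp2 hdy (m + q + d)
    have hℓm : ¬ ℓ ∣ m := Nat.not_dvd_of_pos_of_lt hm (by omega)
    have hℓq : ¬ ℓ ∣ q := Nat.not_dvd_of_pos_of_lt hq0 (by omega)
    have hdℓ : d ≠ ℓ := by omega
    have hdvd : (d : ℤ) ∣ X - ε * (ℓ : ℤ) ^ 2 := by
      have h1 : (d : ℤ) ∣ ε * ((ℓ : ℤ) - y) * ((ℓ : ℤ) + y) :=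
        Dvd.dvd.mul_right (Dvd.dvd.mul_left hℓy ε) _
      have h2 := dvd_sub hy h1
      have e : X - ε * y ^ 2 - ε * ((ℓ : ℤ) - y) * ((ℓ : ℤ) + y) = X - ε * (ℓ : ℤ) ^ 2 := by ring
      rwa [e] at h2
    obtain ⟨s, hs⟩ := hdvd
    have := map_eq_of_sq hA hp hpV hq hm hmq hΦ hℓ hℓq hℓm hpℓ hpℓ1 hd hdℓ hg2 hg1mem h200 h100
      (IsAway.of_int s) (by
        rw [h110, h210]
        have hs' : (X : ℚ) - ε * (ℓ : ℚ) ^ 2 = d * s := by exact_mod_cast hs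
        linear_combination (m : ℚ) * hs')
    rw [this, hΦ2]
  rcases sq_trichotomy hd (X := X) with h1 | h2 | h3
  · -- `X` is a square
    refine hcase 1 _ hgm ?_ ?_ hΦgm ?_
    · rw [uQ_lQ_conj_00]; linear_combination (-1 : ℚ) * hdr0
    · rw [uQ_lQ_conj_10]; push_cast; ring
    · obtain ⟨y, hy⟩ := h1
      exact ⟨y, by simpa using hy⟩
  · -- `-X` is a square
    refine hcase (-1) _ hgm' ?_ ?_ hΦgm' ?_
    · rw [uQ_lQ_conj_00]; linear_combination (-1 : ℚ) * hdr0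
    · rw [uQ_lQ_conj_10]; push_cast; ring
    · obtain ⟨y, hy⟩ := h2
      refine ⟨y, ?_⟩
      have e : X - -1 * y ^ 2 = -(-X - y ^ 2) := by ring
      rw [e]
      exact (dvd_neg).2 hy
  · -- `-1` is a square: `Φ g1 = - Φ g1`
    obtain ⟨y, hy⟩ := h3
    have hdy : ¬ (d : ℤ) ∣ y := by
      intro h
      have : (d : ℤ) ∣ y ^ 2 := dvd_pow h (by norm_num)
      have h1 := dvd_add hy this
      have e : -1 - y ^ 2 + y ^ 2 = -1 := by ring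
      rw [e] at h1
      have h2 : (d : ℤ) ∣ 1 := (dvd_neg).1 h1
      have h3 : d ∣ 1 := by exact_mod_cast h2
      exact hd.one_lt.ne' (Nat.dvd_one.1 h3)
    -- inverse `W` of `m X` modulo `d`
    have hmXcop : IsCoprime ((m : ℤ) * X) (d : ℤ) := by
      apply IsCoprime.mul_left
      · exact Nat.isCoprime_iff_coprime.2 hmdc
      · exact ((Nat.prime_iff_prime_int.1 hd).coprime_iff_not_dvd.2 hdX).symm
    obtain ⟨W, v, hWv⟩ := hmXcop
    have hdyW : ¬ (d : ℤ) ∣ y * W := by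
      intro h
      rcases (Nat.prime_iff_prime_int.1 hd).dvd_or_dvd h with h | h
      · exact hdy h
      · have h1 : (d : ℤ) ∣ W * ((m : ℤ) * X) + v * d :=
          dvd_add (Dvd.dvd.mul_right h _) (Dvd.intro_left _ rfl)
        rw [hWv] at h1
        have h3 : d ∣ 1 := by exact_mod_cast h1
        exact hd.one_lt.ne' (Nat.dvd_one.1 h3)
    obtain ⟨ℓ, hℓ, hℓB, hℓy, hpℓ, hpℓ1⟩ := exists_prime_C1 hd hp hdp hp2 hdyW (m + q + d)
    have hℓm : ¬ ℓ ∣ m := Nat.not_dvd_of_pos_of_lt hm (by omega)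
    have hℓq : ¬ ℓ ∣ q := Nat.not_dvd_of_pos_of_lt hq0 (by omega)
    have hdℓ : d ≠ ℓ := by omega
    -- `(ℓ m X)² + 1 ≡ 0 mod d`
    have hkey : (d : ℤ) ∣ ((ℓ : ℤ) * ((m : ℤ) * X)) ^ 2 + 1 := by
      -- `ℓ m X ≡ y W m X ≡ y`
      have h1 : (d : ℤ) ∣ (ℓ : ℤ) * ((m : ℤ) * X) - y := by
        have e : (ℓ : ℤ) * ((m : ℤ) * X) - y =
            ((ℓ : ℤ) - y * W) * ((m : ℤ) * X) - y * (v * d) := by
          linear_combination y * hWv
        rw [e]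
        exact dvd_sub (Dvd.dvd.mul_right hℓy _) ⟨y * v, by ring⟩
      have h2 : (d : ℤ) ∣ ((ℓ : ℤ) * ((m : ℤ) * X) - y) * ((ℓ : ℤ) * ((m : ℤ) * X) + y) :=
        Dvd.dvd.mul_right h1 _
      have h3 := dvd_sub h2 hy
      have e : ((ℓ : ℤ) * ((m : ℤ) * X) - y) * ((ℓ : ℤ) * ((m : ℤ) * X) + y) - (-1 - y ^ 2) =
          ((ℓ : ℤ) * ((m : ℤ) * X)) ^ 2 + 1 := by ring
      rwa [e] at h3
    obtain ⟨gt, hgt, ht00, ht10, ht01, ht11, hΦt⟩ := map_transpose hA hm hmq hΦ hg1mem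
    -- `b₁ - ℓ² m X ∈ m d A`
    have hb1 : IsAwayMul q m (g1 0 1) := hg1mem.2.1
    have hdiff_m : IsAwayMul q m (g1 0 1 - (ℓ : ℚ) ^ 2 * ((m : ℚ) * X)) := by
      refine hb1.sub ⟨(ℓ : ℚ) ^ 2 * X, (isAway_natCast_pow q ℓ 2).mul (IsAway.of_int X), by ring⟩
    have hdiff_d : IsAwayMul q d (g1 0 1 - (ℓ : ℚ) ^ 2 * ((m : ℚ) * X)) := by
      have hz : IsAway q (g1 0 1 - (ℓ : ℚ) ^ 2 * ((m : ℚ) * X)) := hdiff_m.isAway
      refine isAwayMul_of_mul_int (n := (m : ℤ) * X) hz ?_ ?_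
      · apply IsCoprime.mul_left
        · exact Nat.isCoprime_iff_coprime.2 hmdc
        · exact ((Nat.prime_iff_prime_int.1 hd).coprime_iff_not_dvd.2 hdX).symm
      · obtain ⟨κ, hκ⟩ := hkey
        have hκ' : ((ℓ : ℚ) * ((m : ℚ) * X)) ^ 2 + 1 = d * κ := by exact_mod_cast hκ
        refine ⟨g1 1 1 - κ, hg1A.2.2.2.sub (IsAway.of_int κ), ?_⟩
        rw [h100, h110] at hdet1
        push_cast
        linear_combination (-1 : ℚ) * hκ' + (-1 : ℚ) * hdet1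
    obtain ⟨s, hs, hsd⟩ := isAwayMul_mul_of_coprime hmdc hdiff_m hdiff_d
    have := map_eq_of_sq hA hp hpV hq hm hmq hΦ hℓ hℓq hℓm hpℓ hpℓ1 hd hdℓ hg1mem hgt h100
      (by rw [ht00, h100]) hs (by
        rw [ht10, h110]
        push_cast at hsd
        linear_combination hsd)
    -- `Φ g1 = - Φ g1`
    rw [hΦt] at this
    have h2 : (2 : ℕ) • Φ g1 = 0 := by
      rw [two_nsmul]
      nth_rewrite 1 [← this]
      exact neg_add_cancel _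
    have hcop : IsCoprime ((2 : ℕ) : ℤ) (p : ℤ) := by
      apply Nat.isCoprime_iff_coprime.2
      exact (Nat.coprime_primes Nat.prime_two hp).2 (Ne.symm hp2)
    obtain ⟨u, v, huv⟩ := hcop
    have h3 : (u * ((2 : ℕ) : ℤ) + v * (p : ℤ)) • Φ g1 = 0 := by
      rw [add_smul, mul_smul, mul_smul, natCast_zsmul, natCast_zsmul, h2, hpV, smul_zero,
        smul_zero, add_zero]
    rwa [huv, one_smul] at h3

/-- **STEP C = THE THEOREM (given STEP A)**: a par-hom of level `m` (prime to `q`) with values in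
an abelian group killed by the odd prime `p ≠ q` vanishes on `Γ(m)`. -/
theorem stepC (hA : StepAHyp q V) {p : ℕ} (hp : p.Prime) (hp2 : p ≠ 2)
    (hpV : ∀ v : V, p • v = 0) (hq : q.Prime) (hm : 0 < m) (hmq : m.Coprime q)
    (hΦ : IsParHom q m Φ) {g : SLQ} (hg : g ∈ GamA q m) : Φ g = 0 := by
  -- WLOG the lower-left entry is nonzero
  wlog hc0 : g 1 0 ≠ 0 generalizing g
  · have hlm : lQ (m : ℚ) ∈ GamA q m :=
      lQ_mem_GamA (by simpa using (IsAwayMul.of_mul (q := q) (M := m) IsAway.one))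
    have h1 := this (mul_mem hlm hg) (by
      rw [mul_10, lQ_10, lQ_11, not_not.1 hc0, mul_zero, add_zero]
      have hdet := det_eq g
      rw [not_not.1 hc0, mul_zero, sub_zero] at hdet
      have hm0 : (m : ℚ) ≠ 0 := by exact_mod_cast hm.ne'
      intro h
      rcases mul_eq_zero.1 h with h | h
      · exact hm0 h
      · rw [h, zero_mul] at hdet
        exact zero_ne_one hdet)
    rw [hΦ.map_mul _ hlm _ hg, hΦ.map_unip _ hlm (by rw [lQ_00, lQ_11]; norm_num), zero_add] at h1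
    exact h1
  have hgA := GamA_le_SLA q m hg
  have hdet := det_eq g
  obtain ⟨t, d, ht, hd, hdB, hdt⟩ := exists_prime_add_mul hq hgA.1 hgA.2.2.1 hgA.2.2.2 hgA.2.1.neg
    hc0 (by linear_combination hdet) (m + q + p)
  have hmem : uQ t * g * (uQ t)⁻¹ ∈ GamA q m := conj_mem_GamA (uQ_mem_SLA ht) hg
  have h00 : (uQ t * g * (uQ t)⁻¹) 0 0 = d := by
    simp only [mul_00, mul_01, mul_10, mul_11, inv_00, inv_01, inv_10, inv_11, uQ_00, uQ_01,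
      uQ_10, uQ_11]
    rw [hdt]; ring
  rw [← hA.u hm hmq hΦ ht g hg]
  exact stepC_prime hA hp hp2 hpV hq.ne_zero hm hmq hΦ hd (by omega)
    (Nat.not_dvd_of_pos_of_lt hq.pos (by omega)) (by omega) hmem h00

end StepC

end Fermat.Agent.S41.CSP54
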