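/-
S41 / C4 [CSP], helper54: HEDGE copy of STEP A of helper11's proof (#3042) (centrality via units):
every par-hom of level `M` (prime to `q`) is invariant under conjugation by `u(t)`, `l(t)`,
`t ∈ ℤ[1/q]` — from the pure number theory statement `NumA3 q M` (helper70's `numA3`, #3076).
-/
import Mathlib
import Fermat.Agent.S41.CSPPlug54.StepC

set_option autoImplicit false
set_option linter.unusedSimpArgs false
set_option linter.unusedVariables false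
set_option linter.unusedSectionVars false

namespace Fermat.Agent.S41.CSP54

open Matrix Fermat.Agent.S41.Amalgam95

/-- the number theory input of (A3) (statement of helper70's `numA3`, #3076). -/
def NumA3 (q M : ℕ) : Prop :=
  ∀ {a c : ℚ}, IsAway q a → IsAwayMul q M (a - 1) → IsAwayMul q M c →
    (∃ x y : ℚ, IsAway q x ∧ IsAway q y ∧ a * x + c * y = 1) →
    ∃ s : ℚ, IsAway q s ∧ ∀ t : ℚ, IsAway q t →
      ∃ (k : ℕ) (r : ℚ), IsAwayMul q M ((q : ℚ) ^ k - 1) ∧ IsAway q r ∧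
        ((q : ℚ) ^ k) ^ 2 * a = a + t * (c + M * s * a) + M * r * (c + M * s * a)

section

variable {q M : ℕ} {V : Type*} [AddCommGroup V] {Ψ : SLQ → V}

/-- **(A1)**: a par-hom kills `h(e)` for `e = q^k ≡ 1 mod M`. -/
lemma IsParHom.map_hQ (hΨ : IsParHom q M Ψ) (hq : q ≠ 0) {k : ℕ}
    (hk : IsAwayMul q M ((q : ℚ) ^ k - 1)) (he : (q : ℚ) ^ k ≠ 0) :
    hQ ((q : ℚ) ^ k) he ∈ GamA q M ∧ Ψ (hQ ((q : ℚ) ^ k) he) = 0 := by
  have hq0 : (q : ℚ) ≠ 0 := by exact_mod_cast hq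
  obtain ⟨x, hx, hex⟩ := hk
  set e : ℚ := (q : ℚ) ^ k with hedef
  have heA : IsAway q e := isAway_natCast_pow q q k
  have heinv : IsAway q e⁻¹ := ⟨k, 1, by rw [← hedef]; push_cast; field_simp⟩
  have hlM : lQ (M : ℚ) ∈ GamA q M :=
    lQ_mem_GamA (by simpa using (IsAwayMul.of_mul (q := q) (M := M) IsAway.one))
  have h1 : uQ x * lQ (M : ℚ) * (uQ x)⁻¹ ∈ GamA q M := conj_mem_GamA (uQ_mem_SLA hx) hlM
  have h2 : uQ ((M : ℚ) * (x ^ 2 * e⁻¹)) ∈ GamA q M :=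
    uQ_mem_GamA (IsAwayMul.of_mul ((by rw [pow_two]; exact hx.mul hx : IsAway q (x ^ 2)).mul heinv))
  have h3 : lQ ((M : ℚ) * (-e)) ∈ GamA q M := lQ_mem_GamA (IsAwayMul.of_mul heA.neg)
  have hfac : hQ e he =
      (uQ x * lQ (M : ℚ) * (uQ x)⁻¹) * uQ ((M : ℚ) * (x ^ 2 * e⁻¹)) * lQ ((M : ℚ) * (-e)) := by
    have hM : e = 1 + M * x := by linarith
    apply ext_entries <;>
    simp only [mul_00, mul_01, mul_10, mul_11, inv_00, inv_01, inv_10, inv_11, hQ_00, hQ_01,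
      hQ_10, hQ_11, uQ_00, uQ_01, uQ_10, uQ_11, lQ_00, lQ_01, lQ_10, lQ_11] <;>
    field_simp <;> rw [hM] <;> ring
  refine ⟨by rw [hfac]; exact mul_mem (mul_mem h1 h2) h3, ?_⟩
  rw [hfac, hΨ.map_mul _ (mul_mem h1 h2) _ h3, hΨ.map_mul _ h1 _ h2,
    hΨ.map_unip _ h1 (by rw [trace_conj, lQ_00, lQ_11]; norm_num),
    hΨ.map_unip _ h2 (by rw [uQ_00, uQ_11]; norm_num),
    hΨ.map_unip _ h3 (by rw [lQ_00, lQ_11]; norm_num), add_zero, add_zero]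

/-- **(A3)**: invariance under `u(t)`. -/
theorem stepA_u (hN : NumA3 q M) (hq : q ≠ 0) (hΨ : IsParHom q M Ψ) {t : ℚ} (ht : IsAway q t)
    {g : SLQ} (hg : g ∈ GamA q M) : Ψ (uQ t * g * (uQ t)⁻¹) = Ψ g := by
  have hq0 : (q : ℚ) ≠ 0 := by exact_mod_cast hq
  have hgA := GamA_le_SLA q M hg
  have hdet := det_eq g
  obtain ⟨s, hs, hst⟩ := hN hgA.1 hg.1 hg.2.2.1
    ⟨g 1 1, -g 0 1, hgA.2.2.2, hgA.2.1.neg, by linear_combination hdet⟩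
  obtain ⟨k, r, hk, hr, hkr⟩ := hst t ht
  have he : (q : ℚ) ^ k ≠ 0 := pow_ne_zero _ hq0
  obtain ⟨hH, hΨH⟩ := hΨ.map_hQ hq hk he
  generalize (q : ℚ) ^ k = e at he hH hΨH hk hkr
  -- `g' = l(M s) g`
  have hL : lQ ((M : ℚ) * s) ∈ GamA q M := lQ_mem_GamA (IsAwayMul.of_mul hs)
  have hLinv : lQ (-((M : ℚ) * s)) ∈ GamA q M := lQ_mem_GamA (IsAwayMul.of_mul hs).neg
  obtain ⟨g', hg'def⟩ : ∃ g' : SLQ, g' = lQ ((M : ℚ) * s) * g := ⟨_, rfl⟩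
  have hg' : g' ∈ GamA q M := by rw [hg'def]; exact mul_mem hL hg
  have e0 : Ψ g' = Ψ g := by
    rw [hg'def, hΨ.map_mul _ hL _ hg, hΨ.map_unip _ hL (by rw [lQ_00, lQ_11]; norm_num), zero_add]
  have hg'00 : g' 0 0 = g 0 0 := by rw [hg'def, mul_00, lQ_00, lQ_01]; ring
  have hg'10 : g' 1 0 = g 1 0 + M * s * g 0 0 := by rw [hg'def, mul_10, lQ_10, lQ_11]; ring
  -- `X = h(e) g' h(e)`
  obtain ⟨X, hXdef⟩ : ∃ X : SLQ, X = hQ e he * g' * hQ e he := ⟨_, rfl⟩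
  have hX : X ∈ GamA q M := by rw [hXdef]; exact mul_mem (mul_mem hH hg') hH
  have eX : Ψ X = Ψ g' := by
    rw [hXdef, hΨ.map_mul _ (mul_mem hH hg') _ hH, hΨ.map_mul _ hH _ hg', hΨH, zero_add, add_zero]
  have hX00 : X 0 0 = e ^ 2 * g' 0 0 := by
    simp only [hXdef, mul_00, mul_01, mul_10, mul_11, hQ_00, hQ_01, hQ_10, hQ_11]; ring
  have hX10 : X 1 0 = g' 1 0 := by
    simp only [hXdef, mul_00, mul_01, mul_10, mul_11, hQ_00, hQ_01, hQ_10, hQ_11]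
    field_simp
    ring
  -- `Y = u(t) g' u(t)⁻¹`, `Z = u(M r) Y`
  obtain ⟨Y, hYdef⟩ : ∃ Y : SLQ, Y = uQ t * g' * (uQ t)⁻¹ := ⟨_, rfl⟩
  have hY : Y ∈ GamA q M := by rw [hYdef]; exact conj_mem_GamA (uQ_mem_SLA ht) hg'
  have hY00 : Y 0 0 = g' 0 0 + t * g' 1 0 := by
    simp only [hYdef, mul_00, mul_01, mul_10, mul_11, inv_00, inv_01, inv_10, inv_11, uQ_00,
      uQ_01, uQ_10, uQ_11]; ring
  have hY10 : Y 1 0 = g' 1 0 := by
    simp only [hYdef, mul_00, mul_01, mul_10, mul_11, inv_00, inv_01, inv_10, inv_11, uQ_00,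
      uQ_01, uQ_10, uQ_11]; ring
  have hU : uQ ((M : ℚ) * r) ∈ GamA q M := uQ_mem_GamA (IsAwayMul.of_mul hr)
  have hZ : uQ ((M : ℚ) * r) * Y ∈ GamA q M := mul_mem hU hY
  have eXZ : Ψ X = Ψ (uQ ((M : ℚ) * r) * Y) := by
    refine hΨ.map_eq_of_col0 hX hZ ?_ ?_
    · rw [hX00, mul_00, uQ_00, uQ_01, hY00, hY10, hg'00, hg'10]
      linear_combination hkr
    · rw [hX10, mul_10, uQ_10, uQ_11, hY10]; ring
  have eZY : Ψ (uQ ((M : ℚ) * r) * Y) = Ψ Y := by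
    rw [hΨ.map_mul _ hU _ hY, hΨ.map_unip _ hU (by rw [uQ_00, uQ_11]; norm_num), zero_add]
  have eY : Ψ Y = Ψ g := by rw [← eZY, ← eXZ, eX, e0]
  -- back to `g`
  have hconj : uQ t * lQ (-((M : ℚ) * s)) * (uQ t)⁻¹ ∈ GamA q M :=
    conj_mem_GamA (uQ_mem_SLA ht) hLinv
  have hfin : uQ t * g * (uQ t)⁻¹ = (uQ t * lQ (-((M : ℚ) * s)) * (uQ t)⁻¹) * Y := by
    have hgg' : g = lQ (-((M : ℚ) * s)) * g' := by
      rw [hg'def, ← lQ_inv]; group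
    rw [hYdef]
    conv_lhs => rw [hgg']
    group
  rw [hfin, hΨ.map_mul _ hconj _ hY,
    hΨ.map_unip _ hconj (by rw [trace_conj, lQ_00, lQ_11]; norm_num), zero_add, eY]

/-- `w u(t) w⁻¹ = l(-t)` -/
lemma wQ_uQ_conj (t : ℚ) : wQ * uQ t * wQ⁻¹ = lQ (-t) := by
  apply ext_entries <;>
  simp only [mul_00, mul_01, mul_10, mul_11, inv_00, inv_01, inv_10, inv_11, uQ_00, uQ_01,
    uQ_10, uQ_11, lQ_00, lQ_01, lQ_10, lQ_11, wQ_00, wQ_01, wQ_10, wQ_11] <;> ring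

/-- **(A4)**: invariance under `l(t)`. -/
theorem stepA_l (hN : NumA3 q M) (hq : q ≠ 0) (hΨ : IsParHom q M Ψ) {t : ℚ} (ht : IsAway q t)
    {g : SLQ} (hg : g ∈ GamA q M) : Ψ (lQ t * g * (lQ t)⁻¹) = Ψ g := by
  have hw := wQ_mem_SLA q
  have hΨw : IsParHom q M (fun g => Ψ (wQ * g * wQ⁻¹)) :=
    hΨ.comp_conj wQ (fun g hg => conj_mem_GamA hw hg)
  have hg1 : wQ⁻¹ * g * wQ⁻¹⁻¹ ∈ GamA q M := conj_mem_GamA (inv_mem hw) hg
  have := stepA_u hN hq hΨw ht.neg hg1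
  beta_reduce at this
  have e1 : wQ * (uQ (-t) * (wQ⁻¹ * g * wQ⁻¹⁻¹) * (uQ (-t))⁻¹) * wQ⁻¹ = lQ t * g * (lQ t)⁻¹ := by
    have h := wQ_uQ_conj (-t)
    rw [neg_neg] at h
    rw [← h]
    group
  have e2 : wQ * (wQ⁻¹ * g * wQ⁻¹⁻¹) * wQ⁻¹ = g := by group
  rw [e1, e2] at this
  exact this

end

/-- **STEP A** from the number theory input. -/
theorem stepAHyp_of_numA3 {q : ℕ} (hq : q ≠ 0) (V : Type*) [AddCommGroup V]
    (hN : ∀ M : ℕ, 0 < M → M.Coprime q → NumA3 q M) : StepAHyp q V := by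
  intro M Ψ hM hMq hΨ t ht g hg
  exact ⟨stepA_u (hN M hM hMq) hq hΨ ht hg, stepA_l (hN M hM hMq) hq hΨ ht hg⟩

end Fermat.Agent.S41.CSP54
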