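/-
S41 / C4 [CSP], helper54: the number theory of (A3) in helper11's proof (#3042) = helper70's
statement `numA3` (#3076), with helper64's simplifications (#3080):
`j = (c₀ - 1)/2`, `c₀ ≡ -1 mod (4M or M)`, `L` by gcd-splitting.
-/
import Mathlib
import Fermat.Agent.S41.CSPPlug54.StepA

set_option autoImplicit false
set_option linter.unusedSimpArgs false
set_option linter.unusedVariables false
set_option linter.unusedSectionVars false

namespace Fermat.Agent.S41.CSP54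

open Matrix Fermat.Agent.S41.Amalgam95

section Lemmas

/-- (N1) split `n = L R` with `R` prime to `M` and every prime factor of `L` dividing `M`. -/
lemma exists_split (M : ℕ) : ∀ n : ℕ, 0 < n →
    ∃ L R : ℕ, n = L * R ∧ R.Coprime M ∧ ∀ ℓ : ℕ, ℓ.Prime → ℓ ∣ L → ℓ ∣ M := by
  intro n
  induction n using Nat.strong_induction_on with
  | _ n ih =>
    intro hn
    by_cases hcop : n.Coprime M
    · exact ⟨1, n, by ring, hcop, fun ℓ hℓ h => absurd (Nat.dvd_one.1 h) hℓ.ne_one⟩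
    · set g := n.gcd M with hg
      have hg1 : g ≠ 1 := hcop
      have hg0 : 0 < g := Nat.gcd_pos_of_pos_left M hn
      have hgn : g ∣ n := Nat.gcd_dvd_left n M
      obtain ⟨n', hn'⟩ := hgn
      have hn'0 : 0 < n' := by
        rcases Nat.eq_zero_or_pos n' with h | h
        · rw [h, mul_zero] at hn'; omega
        · exact h
      have hlt : n' < n := by
        rw [hn']
        have : 2 ≤ g := by omega
        nlinarith
      obtain ⟨L', R', hLR, hR, hL⟩ := ih n' hlt hn'0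
      refine ⟨g * L', R', by rw [hn', hLR]; ring, hR, fun ℓ hℓ h => ?_⟩
      rcases (Nat.Prime.dvd_mul hℓ).1 h with h | h
      · exact dvd_trans h (Nat.gcd_dvd_right n M)
      · exact hL ℓ hℓ h

/-- (N5) the binomial tail -/
lemma exists_binom_tail (x : ℤ) (i : ℕ) : ∃ B : ℤ, (1 + x) ^ i = 1 + i * x + x ^ 2 * B := by
  induction i with
  | zero => exact ⟨0, by simp⟩
  | succ i ih =>
    obtain ⟨B, hB⟩ := ih
    refine ⟨i + B + x * B, ?_⟩
    rw [pow_succ, hB]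
    push_cast
    ring

/-- (N3) `j = (c₀ - 1)/2` is prime to `M` when `c₀ ≡ -1` modulo `4M` (`M` even) resp. `M`. -/
lemma coprime_half_pred {M c0 : ℕ} (hodd : c0 % 2 = 1)
    (h : (if Even M then 4 * M else M) ∣ c0 + 1) : ((c0 - 1) / 2).Coprime M := by
  apply Nat.coprime_of_dvd
  intro ℓ hℓ hℓj hℓM
  have hMt : M ∣ c0 + 1 := by
    by_cases hM : Even M
    · rw [if_pos hM] at h; exact dvd_trans ⟨4, by ring⟩ h
    · rw [if_neg hM] at h; exact h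
  have h2j : ℓ ∣ c0 - 1 := by
    have : c0 - 1 = (c0 - 1) / 2 * 2 := by omega
    rw [this]; exact Dvd.dvd.mul_right hℓj 2
  have h1 : ℓ ∣ c0 + 1 := dvd_trans hℓM hMt
  have h2 : ℓ ∣ 2 := by
    have := Nat.dvd_sub h1 h2j
    have e : c0 + 1 - (c0 - 1) = 2 := by omega
    rwa [e] at this
  have hℓ2 : ℓ = 2 := (Nat.prime_dvd_prime_iff_eq hℓ Nat.prime_two).1 h2
  subst hℓ2
  have hM : Even M := (even_iff_two_dvd).2 hℓM
  rw [if_pos hM] at h
  obtain ⟨M', hM'⟩ := hℓM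
  have h8 : 8 ∣ c0 + 1 := dvd_trans ⟨M', by rw [hM']; ring⟩ h
  omega

/-- the prime-to-`q` part of a nonzero element of `ℤ[1/q]`: `a = n' · unit`. -/
lemma exists_unit_decomp {q : ℕ} (hq : q.Prime) {c : ℚ} (hc : IsAway q c) (hc0 : c ≠ 0) :
    ∃ n' : ℕ, 0 < n' ∧ n'.Coprime q ∧ IsAway q (c / n') ∧ IsAway q ((n' : ℚ) / c) := by
  have hq0 : (q : ℚ) ≠ 0 := by exact_mod_cast hq.ne_zero
  obtain ⟨s, γ, hγ⟩ := hc
  have hγ0 : γ ≠ 0 := by
    rintro rfl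
    have : c * (q : ℚ) ^ s = 0 := by rw [hγ]; simp
    rcases mul_eq_zero.1 this with h | h
    · exact hc0 h
    · exact pow_ne_zero _ hq0 h
  have hn : γ.natAbs ≠ 0 := Int.natAbs_ne_zero.2 hγ0
  obtain ⟨e, n', hqn', hnn'⟩ := Nat.exists_eq_pow_mul_and_not_dvd hn q hq.ne_one
  have hn'q : n'.Coprime q := ((Nat.Prime.coprime_iff_not_dvd hq).2 hqn').symm
  have hn'0 : n' ≠ 0 := by
    rintro rfl
    exact hqn' (dvd_zero _)
  have hn'Q : (n' : ℚ) ≠ 0 := by exact_mod_cast hn'0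
  obtain ⟨ε, hε, hγε⟩ : ∃ ε : ℤ, (ε = 1 ∨ ε = -1) ∧ γ = ε * ((q : ℤ) ^ e * n') := by
    rcases Int.natAbs_eq γ with h | h
    · exact ⟨1, Or.inl rfl, by rw [h, hnn']; push_cast; ring⟩
    · exact ⟨-1, Or.inr rfl, by rw [h, hnn']; push_cast; ring⟩
  have hε2 : (ε : ℚ) * ε = 1 := by
    rcases hε with rfl | rfl <;> norm_num
  have hcγ : c * (q : ℚ) ^ s = ε * ((q : ℚ) ^ e * n') := by rw [hγ, hγε]; push_cast; ring
  refine ⟨n', Nat.pos_of_ne_zero hn'0, hn'q, ⟨s, ε * (q : ℤ) ^ e, ?_⟩, ⟨e, ε * (q : ℤ) ^ s, ?_⟩⟩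
  · push_cast
    field_simp
    linear_combination hcγ
  · push_cast
    have hc1 : c = ε * ((q : ℚ) ^ e * n') / (q : ℚ) ^ s := by
      field_simp
      linear_combination hcγ
    rw [hc1]
    have hεQ : (ε : ℚ) ≠ 0 := by
      intro h
      rw [h] at hε2
      norm_num at hε2
    field_simp
    linear_combination (-1 : ℚ) * hε2

/-- an integer which is a unit modulo `K ℤ[1/q]` is prime to `K`. -/
lemma isCoprime_of_isAwayMul {q K : ℕ} (hKq : K.Coprime q) {k : ℤ} {x : ℚ} (hx : IsAway q x)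
    (h : IsAwayMul q K ((k : ℚ) * x - 1)) : IsCoprime k (K : ℤ) := by
  obtain ⟨u, ξ, hξ⟩ := hx
  have h1 : IsAwayMul q K (((k * ξ - (q : ℤ) ^ u : ℤ) : ℚ)) := by
    have := IsAwayMul.mul_right h (isAway_natCast_pow q q u)
    have e : ((k * ξ - (q : ℤ) ^ u : ℤ) : ℚ) = ((k : ℚ) * x - 1) * (q : ℚ) ^ u := by
      push_cast
      rw [← hξ]
      ring
    rwa [e]
  obtain ⟨κ, hκ⟩ := dvd_of_isAwayMul_int hKq h1
  have hcopq : IsCoprime ((q : ℤ) ^ u) (K : ℤ) :=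
    IsCoprime.pow_left (Nat.isCoprime_iff_coprime.2 hKq.symm)
  have : IsCoprime (k * ξ) (K : ℤ) := by
    have e : k * ξ = (q : ℤ) ^ u + K * κ := by linarith
    rw [e]
    exact (IsCoprime.add_mul_left_left_iff).2 hcopq
  exact IsCoprime.of_mul_left_left this

/-- (N2) Dirichlet + CRT for (A3): a prime `c₀ ≡ -1 mod Mt`, `c₀ ≡ Z mod α'`. -/
lemma exists_prime_A3 {Mt α' : ℕ} (hMt : 0 < Mt) (hα' : 0 < α') (hcop : Mt.Coprime α') {Z : ℤ}
    (hZ : IsCoprime Z (α' : ℤ)) (B : ℕ) :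
    ∃ c0 : ℕ, c0.Prime ∧ B < c0 ∧ Mt ∣ c0 + 1 ∧ (α' : ℤ) ∣ (c0 : ℤ) - Z := by
  have hb : IsCoprime (Mt : ℤ) (α' : ℤ) := Nat.isCoprime_iff_coprime.2 hcop
  obtain ⟨u, v, huv⟩ := hb
  set z : ℤ := -(v * α') + Z * (u * Mt) with hz
  have hz1 : z + 1 = Mt * (Z * u + u) := by rw [hz]; linear_combination (-1 : ℤ) * huv
  have hz2 : z - Z = α' * (-(v * (1 + Z))) := by rw [hz]; linear_combination (Z) * huv
  have hzc : IsCoprime z ((Mt * α' : ℕ) : ℤ) := by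
    push_cast
    apply IsCoprime.mul_right
    · exact ⟨-1, Z * u + u, by linear_combination (-1 : ℤ) * hz1⟩
    · have e : z = Z + α' * (-(v * (1 + Z))) := by linarith
      rw [e]
      exact (IsCoprime.add_mul_left_left_iff).2 hZ
  obtain ⟨c0, hc0, hc0B, w, hw⟩ :=
    exists_prime_int_modEq (Nat.mul_ne_zero hMt.ne' hα'.ne') hzc B
  push_cast at hw
  refine ⟨c0, hc0, hc0B, ?_, ?_⟩
  · have : (Mt : ℤ) ∣ ((c0 + 1 : ℕ) : ℤ) := by
      push_cast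
      exact ⟨α' * w + (Z * u + u), by linear_combination hw + hz1⟩
    exact Int.natCast_dvd_natCast.1 this
  · exact ⟨Mt * w - v * (1 + Z), by linear_combination hw + hz2⟩

/-- (N4) the geometric sum -/
lemma geom_factor {M : ℕ} {e0 : ℤ} (he0 : (M : ℤ) ∣ e0 - 1) (j : ℕ) :
    ∃ S : ℤ, (e0 ^ 2) ^ j - 1 = (e0 ^ 2 - 1) * S ∧ (M : ℤ) ∣ S - j := by
  refine ⟨∑ i ∈ Finset.range j, (e0 ^ 2) ^ i, ?_, ?_⟩
  · rw [mul_comm, geom_sum_mul]
  · rw [← ZMod.intCast_zmod_eq_zero_iff_dvd]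
    have h1 : ((e0 : ℤ) : ZMod M) = 1 := by
      have := (ZMod.intCast_zmod_eq_zero_iff_dvd (e0 - 1) M).2 he0
      push_cast at this
      exact sub_eq_zero.1 this
    push_cast
    rw [h1]
    simp

end Lemmas

/-- **the number theory of (A3)** (= helper70's `numA3`, #3076). -/
theorem numA3 {q M : ℕ} (hq : q.Prime) (hM : 0 < M) (hMq : M.Coprime q) : NumA3 q M := by
  intro a c ha ha1 hc hcop
  have hq0 : (q : ℚ) ≠ 0 := by exact_mod_cast hq.ne_zero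
  -- the trivial case `M = 1`
  by_cases hM1 : M = 1
  · subst hM1
    refine ⟨0, IsAway.zero, fun t ht => ⟨0, -t, ?_, ht.neg, ?_⟩⟩
    · rw [pow_zero, sub_self]; exact IsAwayMul.zero
    · push_cast; ring
  have hM2 : 2 ≤ M := by omega
  have hMQ : (M : ℚ) ≠ 0 := by exact_mod_cast hM.ne'
  obtain ⟨x, y, hx, hy, hxy⟩ := hcop
  -- `a ≠ 0`
  have ha0 : a ≠ 0 := by
    rintro rfl
    have h1 : IsAwayMul q M (((1 : ℤ)) : ℚ) := by
      have := ha1.neg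
      simpa using this
    have := dvd_of_isAwayMul_int hMq h1
    have : M ∣ 1 := by exact_mod_cast this
    exact hM1 (Nat.dvd_one.1 this)
  -- `e₀ = q^φ(M) ≡ 1 mod M`, `e₀² - 1 = L R₀`
  obtain ⟨e0, he0⟩ : ∃ e0 : ℕ, e0 = q ^ M.totient := ⟨_, rfl⟩
  have he0M : e0 ≡ 1 [MOD M] := by rw [he0]; exact Nat.ModEq.pow_totient hMq.symm
  have hφ : 0 < M.totient := Nat.totient_pos.2 hM
  have he0_2 : 2 ≤ e0 := by
    rw [he0]
    calc 2 ≤ q := hq.two_le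
      _ = q ^ 1 := (pow_one q).symm
      _ ≤ q ^ M.totient := Nat.pow_le_pow_right hq.pos hφ
  have he0Z : (M : ℤ) ∣ (e0 : ℤ) - 1 := by
    have := (Nat.modEq_iff_dvd' (by omega : 1 ≤ e0)).1 he0M.symm
    have h2 : ((M : ℕ) : ℤ) ∣ ((e0 - 1 : ℕ) : ℤ) := Int.natCast_dvd_natCast.2 this
    rwa [Nat.cast_sub (by omega : 1 ≤ e0), Nat.cast_one] at h2
  have hE0 : 0 < e0 ^ 2 - 1 := by
    have : 4 ≤ e0 ^ 2 := by nlinarith
    omega
  obtain ⟨L, R0, hLR, hR0, hLp⟩ := exists_split M (e0 ^ 2 - 1) hE0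
  have hME : M ∣ e0 ^ 2 - 1 := by
    have h1 : e0 ^ 2 ≡ 1 [MOD M] := by simpa using he0M.pow 2
    exact (Nat.modEq_iff_dvd' (by nlinarith : 1 ≤ e0 ^ 2)).1 h1.symm
  have hML : M ∣ L := by
    rw [hLR] at hME
    exact (Nat.Coprime.dvd_of_dvd_mul_right hR0.symm hME)
  obtain ⟨L1, hL1⟩ := hML
  have hLZ : ((e0 : ℤ)) ^ 2 - 1 = (L : ℤ) * R0 := by
    have h1 : ((e0 ^ 2 - 1 : ℕ) : ℤ) = ((L * R0 : ℕ) : ℤ) := by rw [hLR]
    rw [Nat.cast_sub (by nlinarith : 1 ≤ e0 ^ 2)] at h1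
    push_cast at h1
    exact h1
  -- the prime-to-`q` part `α'` of `a`
  obtain ⟨α', hα'0, hα'q, hω', hω⟩ := exists_unit_decomp hq ha ha0
  have hα'Q : (α' : ℚ) ≠ 0 := by exact_mod_cast hα'0.ne'
  have hα'M : IsCoprime (α' : ℤ) (M : ℤ) := by
    refine isCoprime_of_isAwayMul hMq hω' ?_
    have e : ((α' : ℤ) : ℚ) * (a / α') - 1 = a - 1 := by push_cast; field_simp
    rw [e]; exact ha1
  have hα'Mnat : α'.Coprime M := Nat.isCoprime_iff_coprime.1 hα'M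
  -- `c = M c₁`, integer representative `C₁` of `c₁` modulo `α'`
  obtain ⟨c1, hc1A, hcc1⟩ := hc
  obtain ⟨C1, r3, hr3, hCr3⟩ := exists_int_sub_isAwayMul hα'q hc1A
  have hC1 : IsCoprime C1 (α' : ℤ) := by
    refine isCoprime_of_isAwayMul hα'q ((isAway_natCast q M).mul hy) ?_
    refine ⟨-((a / α') * x + r3 * M * y), ((hω'.mul hx).add ((hr3.mul (isAway_natCast q M)).mul hy)).neg, ?_⟩
    have e1 : (C1 : ℚ) = c1 - α' * r3 := by linarith
    rw [e1]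
    field_simp
    linear_combination hxy - y * hcc1
  -- `L₁` is prime to `α'`
  have hLα' : L1.Coprime α' := by
    apply Nat.coprime_of_dvd
    intro ℓ hℓ h1 h2
    have h3 : ℓ ∣ M := hLp ℓ hℓ (by rw [hL1]; exact Dvd.dvd.mul_left h1 M)
    have := Nat.eq_one_of_dvd_coprimes hα'Mnat h2 h3
    exact hℓ.ne_one this
  obtain ⟨u1, v1, huv1⟩ := (Nat.isCoprime_iff_coprime.2 hLα' : IsCoprime (L1 : ℤ) (α' : ℤ))
  have hZ : IsCoprime (u1 * C1) (α' : ℤ) := by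
    apply IsCoprime.mul_left
    · exact ⟨L1, v1, by linear_combination huv1⟩
    · exact hC1
  -- the prime `c₀`
  obtain ⟨Mt, hMt⟩ : ∃ Mt : ℕ, Mt = if Even M then 4 * M else M := ⟨_, rfl⟩
  have hMt0 : 0 < Mt := by
    rw [hMt]; split_ifs <;> omega
  have hMtα' : Mt.Coprime α' := by
    apply Nat.coprime_of_dvd
    intro ℓ hℓ h1 h2
    have h3 : ℓ ∣ M := by
      rw [hMt] at h1
      by_cases hev : Even M
      · rw [if_pos hev] at h1
        rcases (Nat.Prime.dvd_mul hℓ).1 h1 with h | h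
        · have : ℓ ∣ 2 := by
            have h4 : ℓ ∣ 2 * 2 := by simpa using h
            rcases (Nat.Prime.dvd_mul hℓ).1 h4 with h | h <;> exact h
          exact dvd_trans this (even_iff_two_dvd.1 hev)
        · exact h
      · rwa [if_neg hev] at h1
    have := Nat.eq_one_of_dvd_coprimes hα'Mnat h2 h3
    exact hℓ.ne_one this
  obtain ⟨c0, hc0, hc0B, hc0Mt, κ, hκ⟩ := exists_prime_A3 hMt0 hα'0 hMtα' hZ (M + q + 2)
  have hc0odd : c0 % 2 = 1 := by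
    rcases hc0.eq_two_or_odd with h | h
    · omega
    · exact h
  -- `α' ∣ L₁ c₀ - C₁`, hence `s := (L₁ c₀ - c₁)/a ∈ ℤ[1/q]`
  have hdiv : (L1 : ℤ) * c0 - C1 = α' * (L1 * κ - C1 * v1) := by
    linear_combination (L1 : ℤ) * hκ + C1 * huv1
  have hdivQ : (L1 : ℚ) * c0 - C1 = α' * (L1 * κ - C1 * v1) := by exact_mod_cast hdiv
  obtain ⟨s, hsdef⟩ : ∃ s : ℚ, s = ((L1 : ℚ) * κ - C1 * v1 - r3) * ((α' : ℚ) / a) := ⟨_, rfl⟩
  have hsA : IsAway q s := by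
    rw [hsdef]
    exact ((((isAway_natCast q L1).mul (IsAway.of_int κ)).sub
      ((IsAway.of_int C1).mul (IsAway.of_int v1))).sub hr3).mul hω
  have hsa : s * a = (L1 : ℚ) * c0 - c1 := by
    rw [hsdef]
    field_simp
    linear_combination (-1 : ℚ) * hdivQ + hCr3
  have hLQ : (L : ℚ) = M * L1 := by rw [hL1]; push_cast; ring
  have hc' : c + M * s * a = (L : ℚ) * c0 := by
    rw [mul_assoc, hsa, hcc1, hLQ]; ring
  refine ⟨s, hsA, ?_⟩
  -- the unit `η² = (e₀²)^j = 1 + c' s₂`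
  obtain ⟨j, hj⟩ : ∃ j : ℕ, j = (c0 - 1) / 2 := ⟨_, rfl⟩
  have hjM : j.Coprime M := by rw [hj]; exact coprime_half_pred hc0odd (hMt ▸ hc0Mt)
  have h2j : 2 * j = c0 - 1 := by omega
  have hc0q : ¬ c0 ∣ q := Nat.not_dvd_of_pos_of_lt hq.pos (by omega)
  have hc0M : ¬ c0 ∣ M := Nat.not_dvd_of_pos_of_lt hM (by omega)
  have hfermat : (c0 : ℤ) ∣ ((e0 : ℤ) ^ 2) ^ j - 1 := by
    have : Fact c0.Prime := Fact.mk hc0
    rw [← ZMod.intCast_zmod_eq_zero_iff_dvd]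
    push_cast
    rw [← pow_mul, h2j]
    have hne : ((e0 : ℕ) : ZMod c0) ≠ 0 := by
      rw [Ne, ZMod.natCast_eq_zero_iff, he0]
      intro h
      exact hc0q (hc0.dvd_of_dvd_pow h)
    rw [ZMod.pow_card_sub_one_eq_one hne, sub_self]
  obtain ⟨S, hS1, k0, hS2⟩ := geom_factor he0Z j
  have hSM : IsCoprime S (M : ℤ) := by
    have e : S = j + M * k0 := by linarith
    rw [e]
    exact (IsCoprime.add_mul_left_left_iff).2 (Nat.isCoprime_iff_coprime.2 hjM)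
  have hc0L : ¬ (c0 : ℤ) ∣ (L : ℤ) := by
    intro h
    exact hc0M (hLp c0 hc0 (Int.natCast_dvd_natCast.1 h))
  have hc0RS : (c0 : ℤ) ∣ (R0 : ℤ) * S := by
    rw [hS1, hLZ, mul_assoc] at hfermat
    rcases (Nat.prime_iff_prime_int.1 hc0).dvd_or_dvd hfermat with h | h
    · exact absurd h hc0L
    · exact h
  obtain ⟨s2, hs2⟩ := hc0RS
  have hs2M : IsCoprime s2 (M : ℤ) := by
    have h1 : IsCoprime ((R0 : ℤ) * S) (M : ℤ) :=
      IsCoprime.mul_left (Nat.isCoprime_iff_coprime.2 hR0) hSM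
    rw [hs2] at h1
    exact IsCoprime.of_mul_left_right h1
  have hη : ((e0 : ℤ) ^ 2) ^ j = 1 + (L : ℤ) * c0 * s2 := by
    have : ((e0 : ℤ) ^ 2) ^ j - 1 = (L : ℤ) * c0 * s2 := by
      rw [hS1, hLZ, mul_assoc, hs2]; ring
    linarith
  obtain ⟨u2, v2, huv2⟩ := hs2M
  obtain ⟨ra, hraA, hra⟩ := ha1
  -- now `t`
  intro t ht
  obtain ⟨T, rt, hrtA, hrt⟩ := exists_int_sub_isAwayMul hMq ht
  have hM0Z : (M : ℤ) ≠ 0 := by exact_mod_cast hM.ne'
  obtain ⟨i, hi⟩ : ∃ i : ℕ, (i : ℤ) = (T * u2) % M :=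
    ⟨((T * u2) % M).toNat, Int.toNat_of_nonneg (Int.emod_nonneg _ hM0Z)⟩
  obtain ⟨m1, hm1⟩ : ∃ m1 : ℤ, (i : ℤ) * s2 - T = M * m1 := by
    have h3 := Int.emod_add_mul_ediv (T * u2) M
    refine ⟨-((T * u2) / M) * s2 - T * v2, ?_⟩
    rw [hi]
    have : (T * u2) % M = T * u2 - M * ((T * u2) / M) := by linarith
    rw [this]
    linear_combination T * huv2
  obtain ⟨B, hB⟩ := exists_binom_tail ((L : ℤ) * c0 * s2) i
  refine ⟨M.totient * j * i, (i : ℚ) * s2 * ra + m1 - rt + L1 * c0 * s2 ^ 2 * B * a, ?_, ?_, ?_⟩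
  · -- `q^k ≡ 1 mod M`
    have h1 : q ^ (M.totient * j * i) = e0 ^ (j * i) := by rw [he0, ← pow_mul, mul_assoc]
    have h2 : e0 ^ (j * i) ≡ 1 [MOD M] := by simpa using he0M.pow (j * i)
    have h3 : M ∣ e0 ^ (j * i) - 1 :=
      (Nat.modEq_iff_dvd' (Nat.one_le_pow _ _ (by omega))).1 h2.symm
    obtain ⟨w, hw⟩ := h3
    refine ⟨(w : ℚ), isAway_natCast q w, ?_⟩
    have h4 : ((q ^ (M.totient * j * i) : ℕ) : ℚ) = ((e0 ^ (j * i) - 1 + 1 : ℕ) : ℚ) := by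
      rw [h1, Nat.sub_add_cancel (Nat.one_le_pow _ _ (by omega))]
    rw [hw] at h4
    push_cast at h4
    rw [h4]; ring
  · have hs22 : IsAway q ((s2 : ℚ) ^ 2) := by
      rw [pow_two]; exact (IsAway.of_int s2).mul (IsAway.of_int s2)
    exact ((((((isAway_natCast q i).mul (IsAway.of_int s2)).mul hraA).add (IsAway.of_int m1)).sub
      hrtA).add (((((isAway_natCast q L1).mul (isAway_natCast q c0)).mul hs22).mul
        (IsAway.of_int B)).mul ha))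
  · -- the identity
    rw [hc']
    have hpow : ((q : ℚ) ^ (M.totient * j * i)) ^ 2 = (1 + (L : ℚ) * c0 * s2) ^ i := by
      have h1 : ((q : ℚ) ^ (M.totient * j * i)) ^ 2 = (((e0 : ℚ) ^ 2) ^ j) ^ i := by
        rw [he0]; push_cast; rw [← pow_mul, ← pow_mul, ← pow_mul, ← pow_mul]; congr 1; ring
      have h2 : ((e0 : ℚ) ^ 2) ^ j = 1 + (L : ℚ) * c0 * s2 := by exact_mod_cast hη
      rw [h1, h2]
    have hBQ : (1 + (L : ℚ) * c0 * s2) ^ i = 1 + i * ((L : ℚ) * c0 * s2) + ((L : ℚ) * c0 * s2) ^ 2 * B := by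
      exact_mod_cast hB
    have hm1Q : (i : ℚ) * s2 - T = M * m1 := by exact_mod_cast hm1
    rw [hpow, hBQ, hLQ]
    linear_combination ((M : ℚ) * L1 * c0 * (i : ℚ) * s2) * hra + ((M : ℚ) * L1 * c0) * hm1Q -
      ((M : ℚ) * L1 * c0) * hrt

end Fermat.Agent.S41.CSP54
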