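/-
S41 / C4 [CSP], helper54: HEDGE copy of the PLUG: from the THEOREM (every par-hom of level `N p`
into `𝔽_p` vanishes) to `Ihara95.CSPPlug N q p` and `Ihara73.CSPPlug N q p`, via the `p`-th power
trick (a unipotent of `Γ(N p)` is the `p`-th power of a unipotent of `Γ(N) ≤ Γ₀(N)[1/q]`).
The only remaining input is the number theory statement `NumA3 q M` (helper70's `numA3`, #3076).
-/
import Mathlib
import Fermat.Agent.S41.CSPPlug54.StepA
import Fermat.Agent.S41.Ihara95.Core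
import Fermat.Agent.S41.Ihara73.Core

set_option autoImplicit false
set_option linter.unusedSimpArgs false
set_option linter.unusedVariables false
set_option linter.unusedSectionVars false

namespace Fermat.Agent.S41.CSP54

open Matrix Fermat.Agent.S41.Amalgam95

lemma isPrincipal_iff_mem_GamA (q M : ℕ) (g : SLQ) :
    Fermat.Agent.S41.Ihara95.IsPrincipal q M g ↔ g ∈ GamA q M := Iff.rfl

lemma GamA_le_DeltaQ (N q M : ℕ) (h : N ∣ M) : GamA q M ≤ DeltaQ N q := by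
  intro g hg
  have hgA := GamA_le_SLA q M hg
  obtain ⟨r, hr, hcr⟩ := (hg.2.2.1).of_dvd h
  exact ⟨hgA.1, hgA.2.1, ⟨r, hr, hcr⟩, hgA.2.2.2⟩

section PthPower

variable {q N p : ℕ}

/-- the `p`-th root `1 + (g - 1)/p` of a unipotent `g ∈ Γ(N p)`. -/
noncomputable def pthRoot (p : ℕ) (hp : (p : ℚ) ≠ 0) (g : SLQ) (htr : g 0 0 + g 1 1 = 2) : SLQ :=
  mkQ (1 + (g 0 0 - 1) / p) (g 0 1 / p) (g 1 0 / p) (1 + (g 1 1 - 1) / p) (by
    have hdet := det_eq g
    have h11 : g 1 1 = 2 - g 0 0 := by linarith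
    rw [h11] at hdet ⊢
    field_simp
    linear_combination hdet)

lemma pthRoot_pow (hp : (p : ℚ) ≠ 0) (g : SLQ) (htr : g 0 0 + g 1 1 = 2) (k : ℕ) :
    (pthRoot p hp g htr ^ k) 0 0 = 1 + k * (g 0 0 - 1) / p ∧
    (pthRoot p hp g htr ^ k) 0 1 = k * g 0 1 / p ∧
    (pthRoot p hp g htr ^ k) 1 0 = k * g 1 0 / p ∧
    (pthRoot p hp g htr ^ k) 1 1 = 1 + k * (g 1 1 - 1) / p := by
  have hdet := det_eq g
  have h11 : g 1 1 = 2 - g 0 0 := by linarith
  induction k with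
  | zero =>
    rw [pow_zero, one_00, one_01, one_10, one_11]
    simp
  | succ k ih =>
    obtain ⟨i00, i01, i10, i11⟩ := ih
    rw [pow_succ, mul_00, mul_01, mul_10, mul_11, i00, i01, i10, i11]
    simp only [pthRoot, mkQ_00, mkQ_01, mkQ_10, mkQ_11]
    rw [h11] at hdet ⊢
    push_cast
    refine ⟨?_, ?_, ?_, ?_⟩
    · field_simp
      linear_combination (-(k : ℚ)) * hdet
    · field_simp
      ring
    · field_simp
      ring
    · field_simp
      linear_combination (-(k : ℚ)) * hdet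

lemma pthRoot_pow_self (hp : (p : ℚ) ≠ 0) (g : SLQ) (htr : g 0 0 + g 1 1 = 2) :
    pthRoot p hp g htr ^ p = g := by
  obtain ⟨h00, h01, h10, h11⟩ := pthRoot_pow hp g htr p
  apply ext_entries
  · rw [h00]; field_simp; ring
  · rw [h01]; field_simp
  · rw [h10]; field_simp
  · rw [h11]; field_simp; ring

lemma pthRoot_mem (hp : (p : ℚ) ≠ 0) {g : SLQ} (hg : g ∈ GamA q (N * p))
    (htr : g 0 0 + g 1 1 = 2) : pthRoot p hp g htr ∈ GamA q N := by
  have key : ∀ x : ℚ, IsAwayMul q (N * p) x → IsAwayMul q N (x / p) := by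
    rintro x ⟨r, hr, rfl⟩
    refine ⟨r, hr, ?_⟩
    push_cast
    field_simp
  obtain ⟨g00, g01, g10, g11⟩ := hg
  refine ⟨?_, ?_, ?_, ?_⟩
  · simp only [pthRoot, mkQ_00]
    have : 1 + (g 0 0 - 1) / (p : ℚ) - 1 = (g 0 0 - 1) / p := by ring
    rw [this]; exact key _ g00
  · simp only [pthRoot, mkQ_01]; exact key _ g01
  · simp only [pthRoot, mkQ_10]; exact key _ g10
  · simp only [pthRoot, mkQ_11]
    have : 1 + (g 1 1 - 1) / (p : ℚ) - 1 = (g 1 1 - 1) / p := by ring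
    rw [this]; exact key _ g11

end PthPower

section Plug

variable {N q p : ℕ}

/-- extension by zero of a homomorphism `Γ₀(N)[1/q] → 𝔽_p` to a function on `SL(2,ℚ)`. -/
noncomputable def extHom (Φ : ↥(DeltaQ N q) →* Multiplicative (ZMod p)) : SLQ → ZMod p :=
  open Classical in
  fun g => if h : g ∈ DeltaQ N q then Multiplicative.toAdd (Φ ⟨g, h⟩) else 0

lemma extHom_of_mem (Φ : ↥(DeltaQ N q) →* Multiplicative (ZMod p)) {g : SLQ}
    (h : g ∈ DeltaQ N q) : extHom Φ g = Multiplicative.toAdd (Φ ⟨g, h⟩) := by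
  unfold extHom
  rw [dif_pos h]

lemma extHom_mul (Φ : ↥(DeltaQ N q) →* Multiplicative (ZMod p)) {g h : SLQ}
    (hg : g ∈ DeltaQ N q) (hh : h ∈ DeltaQ N q) :
    extHom Φ (g * h) = extHom Φ g + extHom Φ h := by
  rw [extHom_of_mem Φ hg, extHom_of_mem Φ hh, extHom_of_mem Φ (mul_mem hg hh)]
  have : (⟨g * h, mul_mem hg hh⟩ : ↥(DeltaQ N q)) = ⟨g, hg⟩ * ⟨h, hh⟩ := rfl
  rw [this, map_mul, toAdd_mul]

lemma extHom_pow (Φ : ↥(DeltaQ N q) →* Multiplicative (ZMod p)) {g : SLQ}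
    (hg : g ∈ DeltaQ N q) (n : ℕ) : extHom Φ (g ^ n) = n • extHom Φ g := by
  rw [extHom_of_mem Φ hg, extHom_of_mem Φ (pow_mem hg n)]
  have : (⟨g ^ n, pow_mem hg n⟩ : ↥(DeltaQ N q)) = ⟨g, hg⟩ ^ n := rfl
  rw [this, map_pow, toAdd_pow]

/-- the restriction of `Φ` to `Γ(N p)` is a par-hom. -/
lemma isParHom_extHom [Fact p.Prime] (Φ : ↥(DeltaQ N q) →* Multiplicative (ZMod p)) :
    IsParHom q (N * p) (extHom Φ) where
  map_mul g hg h hh :=
    extHom_mul Φ (GamA_le_DeltaQ N q (N * p) (Dvd.intro _ rfl) hg)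
      (GamA_le_DeltaQ N q (N * p) (Dvd.intro _ rfl) hh)
  map_unip g hg htr := by
    have hp : (p : ℚ) ≠ 0 := by exact_mod_cast (Fact.out : p.Prime).ne_zero
    have hroot : pthRoot p hp g htr ∈ DeltaQ N q :=
      GamA_le_DeltaQ N q N dvd_rfl (pthRoot_mem hp hg htr)
    rw [← pthRoot_pow_self hp g htr, extHom_pow Φ hroot, nsmul_eq_mul, CharP.cast_eq_zero,
      zero_mul]

/-- **the PLUG (`Ihara95` form)** from the number theory input `NumA3`. -/
theorem cspPlug95_of_numA3 [hq : Fact q.Prime] [hp : Fact p.Prime] (hp2 : p ≠ 2) (hqp : q ≠ p)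
    (hqN : ¬ q ∣ N) (hN : 0 < N)
    (hNum : ∀ M : ℕ, 0 < M → M.Coprime q → NumA3 q M) :
    Fermat.Agent.S41.Ihara95.CSPPlug N q p := by
  intro Φ
  have hMq : (N * p).Coprime q :=
    Nat.Coprime.mul_left ((Nat.Prime.coprime_iff_not_dvd hq.out).2 hqN).symm
      ((Nat.coprime_primes hp.out hq.out).2 (Ne.symm hqp))
  have hM0 : 0 < N * p := Nat.mul_pos hN hp.out.pos
  refine ⟨N * p, hM0, hMq, fun g hg => ?_⟩
  have hA : StepAHyp q (ZMod p) := stepAHyp_of_numA3 hq.out.ne_zero (ZMod p) hNum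
  have hpV : ∀ v : ZMod p, p • v = 0 := fun v => by
    rw [nsmul_eq_mul, CharP.cast_eq_zero, zero_mul]
  have h0 := stepC hA hp.out hp2 hpV hq.out hM0 hMq (isParHom_extHom Φ)
    ((isPrincipal_iff_mem_GamA q (N * p) g).1 hg)
  rw [extHom_of_mem Φ g.2] at h0
  have : Φ ⟨(g : SLQ), g.2⟩ = 1 := by
    rw [← ofAdd_toAdd (Φ ⟨(g : SLQ), g.2⟩), h0, ofAdd_zero]
  simpa using this

/-- **the PLUG (`Ihara73` form)**. -/
theorem cspPlug73_of_numA3 [hq : Fact q.Prime] [hp : Fact p.Prime] (hp2 : p ≠ 2) (hqp : q ≠ p)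
    (hqN : ¬ q ∣ N) (hN : 0 < N)
    (hNum : ∀ M : ℕ, 0 < M → M.Coprime q → NumA3 q M) :
    Fermat.Agent.S41.Ihara73.CSPPlug N q p := by
  intro φ
  obtain ⟨M, hM0, -, hM⟩ := cspPlug95_of_numA3 hp2 hqp hqN hN hNum φ
  refine ⟨M, hM0, fun g hg => ⟨?_, ?_⟩⟩
  · exact hM _ (Fermat.Agent.S41.Ihara95.isPrincipal_castSL q M _ hg)
  · exact hM _ (Fermat.Agent.S41.Ihara95.isPrincipal_conj_castSL q M (q_ne_zero q) _ hg)

end Plug

end Fermat.Agent.S41.CSP54
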