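/-
S41 / C4 [CSP], helper54: **the congruence subgroup property plug, unconditionally**:
`Ihara73.CSPPlug N q p` and `Ihara95.CSPPlug N q p` for primes `q ∤ N`, `p ≠ 2`, `p ≠ q`, `0 < N`
(helper11's proof #3042: STEP A = `StepA.lean` + `NumA3.lean`, STEP B = `StepB.lean`,
STEP C = `StepC.lean`, `p`-th power trick = `Plug.lean`).
-/
import Mathlib
import Fermat.Agent.S41.CSPPlug54.Plug
import Fermat.Agent.S41.CSPPlug54.NumA3

set_option autoImplicit false

namespace Fermat.Agent.S41.CSP54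

/-- **THE THEOREM** of #3042: every par-hom of level `m` (prime to `q`) with values in an abelian
group killed by an odd prime `p` vanishes. -/
theorem parHom_eq_zero {q m p : ℕ} {V : Type*} [AddCommGroup V] (hq : q.Prime) (hp : p.Prime)
    (hp2 : p ≠ 2) (hpV : ∀ v : V, p • v = 0) (hm : 0 < m) (hmq : m.Coprime q)
    {Φ : Fermat.Agent.S41.Amalgam95.SLQ → V} (hΦ : IsParHom q m Φ)
    {g : Fermat.Agent.S41.Amalgam95.SLQ} (hg : g ∈ GamA q m) : Φ g = 0 :=
  stepC (stepAHyp_of_numA3 hq.ne_zero V (fun _ hM hMq => numA3 hq hM hMq)) hp hp2 hpV hq hm hmq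
    hΦ hg

/-- **[CSP] plug, `Ihara73` form** (the hypothesis `hCSP` of `Ihara95.ihara_hI_degen`). -/
theorem cspPlug73 {N q p : ℕ} [hq : Fact q.Prime] [Fact p.Prime] (hp2 : p ≠ 2) (hqp : q ≠ p)
    (hqN : ¬ q ∣ N) (hN : 0 < N) : Fermat.Agent.S41.Ihara73.CSPPlug N q p :=
  cspPlug73_of_numA3 hp2 hqp hqN hN (fun _ hM hMq => numA3 hq.out hM hMq)

/-- **[CSP] plug, `Ihara95` form**. -/
theorem cspPlug95 {N q p : ℕ} [hq : Fact q.Prime] [Fact p.Prime] (hp2 : p ≠ 2) (hqp : q ≠ p)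
    (hqN : ¬ q ∣ N) (hN : 0 < N) : Fermat.Agent.S41.Ihara95.CSPPlug N q p :=
  cspPlug95_of_numA3 hp2 hqp hqN hN (fun _ hM hMq => numA3 hq.out hM hMq)

end Fermat.Agent.S41.CSP54
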